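/-
S56 (Taylor-Wiles primes), block DICT + T1 (sub-architect helper216).

The dictionary between `𝒪`-algebra homomorphisms `R → k[ε]` out of a universal deformation ring and
cocycles `c : G_ℚ → M₂(k)`.  Everything is done with matrices (toolkit of `S53/MatrixRep.lean`).

* `Cond 𝒪`            : the type of deformation conditions;
* `condSO`, `condFl`  : the two conditions of the frozen statement;
* `dmat a b`          : the matrix `a + ε b` over `k[ε] = Dk 𝒪`;
* `IsCoc`, `IsCob`    : cocycles / coboundaries for the adjoint action of `s : G_ℚ → GL₂(k)`;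
* `IsDCoc 𝒟 s c`      : `g ↦ (1 + ε c(g)) s(g)` is a continuous representation of type `𝒟`;
* `TangentBound 𝒟 s r`: the classes of the cocycles of type `𝒟` inject into a set with at most
                        `|k| ^ r` elements (this is what the arithmetic blocks deliver);
* `IsGoodCond 𝒟`      : the two formal properties of `𝒟` used by the dictionary.
Only definitions.
-/
import Fermat.Agent.S53.MatrixRep
import Fermat.Agent.S53.Tangent
import Fermat.Prelude.Def_GaloisRep_StrictOrdinary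
import Fermat.Prelude.Def_GaloisRep_Flat

set_option autoImplicit false

namespace Fermat.Agent.S56

open IsLocalRing Fermat.Agent.S53 Fermat.Agent.S53.Tangent

/-- Deformation conditions. -/
abbrev Cond (𝒪 : Type) [CommRing 𝒪] : Type 1 :=
  ∀ ⦃A : Type⦄ [CommRing A] [IsLocalRing A] [Algebra 𝒪 A], GaloisRepAdic A → Prop

/-- The strict ordinary condition of the frozen statement (`T` = allowed ramification). -/
def condSO (𝒪 : Type) [CommRing 𝒪] (p : ℕ) (Smin T : Finset ℕ) : Cond 𝒪 :=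
  fun _A _ _ _ ρ => GaloisRep.strictOrdinaryCondition 𝒪 p T ρ ∧
    ∀ q ∈ Smin, q.Prime → q ≠ p → ρ.IsUnipotentOnInertiaAt q

/-- The flat condition of the frozen statement (`T` = allowed ramification). -/
def condFl (𝒪 : Type) [CommRing 𝒪] (p : ℕ) (Smin T : Finset ℕ) : Cond 𝒪 :=
  fun _A _ _ _ ρ => GaloisRep.flatCondition 𝒪 p T ρ ∧
    ∀ q ∈ Smin, q.Prime → q ≠ p → ρ.IsUnipotentOnInertiaAt q

/-- The formal properties of a condition used by the dictionary. -/
structure IsGoodCond {𝒪 : Type} [CommRing 𝒪] (𝒟 : Cond 𝒪) : Prop where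
  of_isEquiv : ∀ ⦃A : Type⦄ [CommRing A] [IsLocalRing A] [Algebra 𝒪 A] ⦃ρ ρ' : GaloisRepAdic A⦄,
    ρ.IsEquiv ρ' → 𝒟 ρ → 𝒟 ρ'
  of_surjective : ∀ ⦃A B : Type⦄ [CommRing A] [IsLocalRing A] [Algebra 𝒪 A]
    [CommRing B] [IsLocalRing B] [Algebra 𝒪 B] (φ : A →ₐ[𝒪] B) (hφ : IsLocalHom (φ : A →+* B)),
    Function.Surjective φ → ∀ ⦃ρ : GaloisRepAdic A⦄, 𝒟 ρ → 𝒟 (ρ.baseChangeAlong (φ : A →+* B) hφ)

section

variable {𝒪 : Type} [CommRing 𝒪] [IsLocalRing 𝒪]

/-- The matrix `a + ε b` over the dual numbers. -/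
noncomputable def dmat (a b : M2 (ResidueField 𝒪)) : M2 (Dk 𝒪) :=
  Matrix.of fun i j => Dk.mk (a i j) (b i j)

theorem dmat_apply (a b : M2 (ResidueField 𝒪)) (i j : Fin 2) :
    dmat a b i j = Dk.mk (a i j) (b i j) := rfl

/-- Cocycles for the adjoint action. -/
def IsCoc (s : Gal →* M2 (ResidueField 𝒪)) (c : Gal → M2 (ResidueField 𝒪)) : Prop :=
  ∀ g h, c (g * h) = c g + s g * c h * s g⁻¹

/-- Coboundaries for the adjoint action. -/
def IsCob (s : Gal →* M2 (ResidueField 𝒪)) (c : Gal → M2 (ResidueField 𝒪)) : Prop :=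
  ∃ m : M2 (ResidueField 𝒪), ∀ g, c g = s g * m * s g⁻¹ - m

/-- `g ↦ (1 + ε c(g)) s(g)` is a continuous representation of type `𝒟`. -/
def IsDCoc (𝒟 : Cond 𝒪) (s : Gal →* M2 (ResidueField 𝒪)) (c : Gal → M2 (ResidueField 𝒪)) : Prop :=
  ∃ (r : Gal →* M2 (Dk 𝒪)) (hr : MatCont r), (∀ g, r g = dmat (s g) (c g * s g)) ∧
    𝒟 (toAdic r hr)

/-- **The tangent bound**: the cocycles of type `𝒟`, modulo coboundaries, inject into a pointed set
`(X, x₀)` with at most `|k| ^ r` elements, only coboundaries being mapped to `x₀`.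
(In the application `X` is a Selmer group, `f` the class map and `x₀ = 0`.) -/
def TangentBound (𝒟 : Cond 𝒪) (s : Gal →* M2 (ResidueField 𝒪)) (r : ℕ) : Prop :=
  ∃ (X : Type) (_ : Finite X) (f : {c : Gal → M2 (ResidueField 𝒪) // IsDCoc 𝒟 s c} → X) (x₀ : X),
    Nat.card X ≤ Nat.card (ResidueField 𝒪) ^ r ∧
    (∀ c c', f c = f c' → IsCob s (fun g => c.1 g - c'.1 g)) ∧
    (∀ c, f c = x₀ → IsCob s c.1)

end

end Fermat.Agent.S56
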