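/-
S56 / DICT, leaf DMAT (task S56-DMAT).  Algebra of the matrices `a + ε b` over `k[ε]`.
-/
import Fermat.Agent.S56.Dict.Defs

set_option autoImplicit false

namespace Fermat.Agent.S56

open IsLocalRing Fermat.Agent.S53 Fermat.Agent.S53.Tangent

variable {𝒪 : Type} [CommRing 𝒪] [IsLocalRing 𝒪]

theorem dmat_mul (a b a' b' : M2 (ResidueField 𝒪)) :
    dmat a b * dmat a' b' = dmat (a * a') (a * b' + b * a') := by
  ext i j
  rw [Matrix.mul_apply, Fin.sum_univ_two, dmat_apply, dmat_apply, dmat_apply, dmat_apply,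
    dmat_apply, Dk.mk_mul, Dk.mk_mul, Dk.mk_add, Matrix.add_apply, Matrix.mul_apply,
    Matrix.mul_apply, Matrix.mul_apply, Fin.sum_univ_two, Fin.sum_univ_two, Fin.sum_univ_two]
  congr 1
  ring

theorem dmat_one : dmat (1 : M2 (ResidueField 𝒪)) 0 = 1 := by
  ext i j
  rw [dmat_apply, Matrix.zero_apply]
  by_cases h : i = j
  · subst h
    rw [Matrix.one_apply_eq, Matrix.one_apply_eq, Dk.mk_one]
  · rw [Matrix.one_apply_ne h, Matrix.one_apply_ne h, Dk.mk_zero]

theorem dmat_inj {a b a' b' : M2 (ResidueField 𝒪)} (h : dmat a b = dmat a' b') :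
    a = a' ∧ b = b' := by
  have key : ∀ i j, a i j = a' i j ∧ b i j = b' i j := fun i j =>
    Dk.mk_inj (by rw [← dmat_apply, ← dmat_apply, h])
  exact ⟨Matrix.ext fun i j => (key i j).1, Matrix.ext fun i j => (key i j).2⟩

theorem exists_dmat (M : M2 (Dk 𝒪)) : ∃ a b, M = dmat a b := by
  choose a b hab using fun i j => Dk.exists_mk (M i j)
  exact ⟨Matrix.of a, Matrix.of b, Matrix.ext fun i j => hab i j⟩

/-- `det (a + ε b) = det a + ε (…)`, in the only case we need. -/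
theorem det_dmat (a c : M2 (ResidueField 𝒪)) :
    (dmat a (c * a)).det = Dk.mk a.det (c.trace * a.det) := by
  rw [Matrix.det_fin_two, dmat_apply, dmat_apply, dmat_apply, dmat_apply, Dk.mk_mul, Dk.mk_mul,
    sub_eq_iff_eq_add, Dk.mk_add, Matrix.det_fin_two, Matrix.trace_fin_two, Matrix.mul_apply,
    Matrix.mul_apply, Matrix.mul_apply, Matrix.mul_apply, Fin.sum_univ_two, Fin.sum_univ_two,
    Fin.sum_univ_two, Fin.sum_univ_two]
  congr 1 <;> ring

/-- The unit `1 + ε m`. -/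
noncomputable def dunit (m : M2 (ResidueField 𝒪)) : (M2 (Dk 𝒪))ˣ where
  val := dmat 1 m
  inv := dmat 1 (-m)
  val_inv := by rw [dmat_mul, ← dmat_one]; simp
  inv_val := by rw [dmat_mul, ← dmat_one]; simp

theorem dunit_val (m : M2 (ResidueField 𝒪)) : ((dunit m : (M2 (Dk 𝒪))ˣ) : M2 (Dk 𝒪)) = dmat 1 m :=
  rfl

theorem s_mul_inv (s : Gal →* M2 (ResidueField 𝒪)) (g : Gal) : s g * s g⁻¹ = 1 := by
  rw [← map_mul, mul_inv_cancel, map_one]

theorem s_inv_mul (s : Gal →* M2 (ResidueField 𝒪)) (g : Gal) : s g⁻¹ * s g = 1 := by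
  rw [← map_mul, inv_mul_cancel, map_one]

end Fermat.Agent.S56
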