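/-
S56 / DICT, leaf DMATCOC (task S56-DMATCOC).  Cocycles, coboundaries and the matrices `a + ε b`.
-/
import Fermat.Agent.S56.Dict.DMat

set_option autoImplicit false

namespace Fermat.Agent.S56

open IsLocalRing Fermat.Agent.S53 Fermat.Agent.S53.Tangent

variable {𝒪 : Type} [CommRing 𝒪] [IsLocalRing 𝒪]

/-- Cohomologous cocycles give conjugate representations. -/
theorem conj_of_cob (s : Gal →* M2 (ResidueField 𝒪)) (c c' : Gal → M2 (ResidueField 𝒪))
    (m : M2 (ResidueField 𝒪)) (h : ∀ g, c g - c' g = s g * m * s g⁻¹ - m) (g : Gal) :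
    dmat 1 m * dmat (s g) (c g * s g) = dmat (s g) (c' g * s g) * dmat 1 m := by
  rw [dmat_mul, dmat_mul, one_mul, mul_one, one_mul, mul_one]
  congr 1
  have h1 : (c g - c' g) * s g = (s g * m * s g⁻¹ - m) * s g := by rw [h g]
  rw [sub_mul, sub_mul, mul_assoc (s g * m), s_inv_mul, mul_one] at h1
  have h2 : c g * s g = s g * m - m * s g + c' g * s g := by rw [← h1]; abel
  rw [h2]; abel

/-- Conjugate representations (by a matrix which is a scalar mod `ε`) give cohomologous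
cocycles.  (Not needed for the count; used by the arithmetic blocks.) -/
theorem cob_of_conj (s : Gal →* M2 (ResidueField 𝒪)) (c c' : Gal → M2 (ResidueField 𝒪))
    (m : M2 (ResidueField 𝒪))
    (h : ∀ g, dmat 1 m * dmat (s g) (c g * s g) = dmat (s g) (c' g * s g) * dmat 1 m) :
    IsCob s (fun g => c g - c' g) := by
  refine ⟨m, fun g => ?_⟩
  have h0 := h g
  rw [dmat_mul, dmat_mul, one_mul, mul_one, one_mul, mul_one] at h0
  have h1 := (dmat_inj h0).2
  have h2 : (c g * s g + m * s g) * s g⁻¹ = (s g * m + c' g * s g) * s g⁻¹ := by rw [h1]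
  rw [add_mul, add_mul, mul_assoc (c g), mul_assoc m, mul_assoc (c' g), s_mul_inv, mul_one,
    mul_one, mul_one] at h2
  show c g - c' g = s g * m * s g⁻¹ - m
  have h3 : c g = s g * m * s g⁻¹ + c' g - m := by rw [← h2]; abel
  rw [h3]; abel

/-- Multiplicativity of `g ↦ (1 + ε c g) s g` is the cocycle relation. -/
theorem isCoc_of_mul (s : Gal →* M2 (ResidueField 𝒪)) (c : Gal → M2 (ResidueField 𝒪))
    (r : Gal →* M2 (Dk 𝒪)) (hr : ∀ g, r g = dmat (s g) (c g * s g)) : IsCoc s c := by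
  intro g h
  have h0 := map_mul r g h
  rw [hr, hr, hr, dmat_mul] at h0
  have h1 := (dmat_inj h0).2
  have h2 : c (g * h) * s (g * h) * s (g * h)⁻¹ =
      (s g * (c h * s h) + c g * s g * s h) * s (g * h)⁻¹ := by rw [h1]
  rw [mul_assoc (c (g * h)), s_mul_inv, mul_one, mul_inv_rev, map_mul, add_mul] at h2
  have e1 : s g * (c h * s h) * (s h⁻¹ * s g⁻¹) = s g * c h * s g⁻¹ := by
    calc s g * (c h * s h) * (s h⁻¹ * s g⁻¹) = s g * c h * (s h * s h⁻¹) * s g⁻¹ := by
          simp only [mul_assoc]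
      _ = s g * c h * s g⁻¹ := by rw [s_mul_inv, mul_one]
  have e2 : c g * s g * s h * (s h⁻¹ * s g⁻¹) = c g := by
    calc c g * s g * s h * (s h⁻¹ * s g⁻¹) = c g * (s g * (s h * s h⁻¹) * s g⁻¹) := by
          simp only [mul_assoc]
      _ = c g := by rw [s_mul_inv, mul_one, s_mul_inv, mul_one]
  rw [e1, e2] at h2
  rw [h2, add_comm]

theorem IsDCoc.isCoc {𝒟 : Cond 𝒪} {s : Gal →* M2 (ResidueField 𝒪)}
    {c : Gal → M2 (ResidueField 𝒪)} (h : IsDCoc 𝒟 s c) : IsCoc s c := by
  obtain ⟨r, -, hr, -⟩ := h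
  exact isCoc_of_mul s c r hr

end Fermat.Agent.S56
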