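/-
S56 / DICT, leaf UNFOLD (task S56-UNFOLD).  Matrix forms of the conditions on `toAdic r hr`.
-/
import Fermat.Agent.S56.Dict.Defs

set_option autoImplicit false

namespace Fermat.Agent.S56

open IsLocalRing Polynomial Fermat.Agent.S53

variable {A : Type} [CommRing A] [IsLocalRing A] (r : Gal →* M2 A) (hr : MatCont r)

theorem Unfold.rho_eq_one_iff (σ : Gal) : (toAdic r hr).ρ σ = 1 ↔ r σ = 1 := by
  rw [toAdic_ρ]
  constructor
  · intro h
    apply (Matrix.toLin' (R := A) (m := Fin 2) (n := Fin 2)).injective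
    rw [Matrix.toLin'_one]
    exact h
  · intro h
    rw [h, Matrix.toLin'_one]
    rfl

theorem Unfold.charpoly_rho (σ : Gal) :
    LinearMap.charpoly ((toAdic r hr).ρ σ) = (r σ).charpoly := by
  rw [toAdic_ρ]
  exact Matrix.charpoly_toLin' (r σ)

theorem Unfold.det_rho (σ : Gal) : LinearMap.det ((toAdic r hr).ρ σ) = (r σ).det := by
  rw [toAdic_ρ]
  exact LinearMap.det_toLin' (r σ)

theorem toAdic_isUnramifiedAt_iff (q : ℕ) :
    (toAdic r hr).IsUnramifiedAt q ↔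
      ∀ P : ValuationSubring (AlgebraicClosure ℚ), P.LiesOverPrime q →
        ∀ σ ∈ P.inertiaSubgroupIn ℚ, r σ = 1 := by
  unfold GaloisRepAdic.IsUnramifiedAt
  simp only [Unfold.rho_eq_one_iff]

theorem toAdic_isUnipotentOnInertiaAt_iff (q : ℕ) :
    (toAdic r hr).IsUnipotentOnInertiaAt q ↔
      ∀ P : ValuationSubring (AlgebraicClosure ℚ), P.LiesOverPrime q →
        ∀ σ ∈ P.inertiaSubgroupIn ℚ, (r σ).charpoly = (X - 1) ^ 2 := by
  unfold GaloisRepAdic.IsUnipotentOnInertiaAt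
  simp only [Unfold.charpoly_rho]

theorem toAdic_detIsCyclotomic_iff (p : ℕ) :
    (toAdic r hr).DetIsCyclotomic p ↔ (p : A) ∈ maximalIdeal A ∧
      ∀ (n : ℕ) (σ : Gal) (a : ℕ), (∀ μ : AlgebraicClosure ℚ, μ ^ p ^ n = 1 → σ μ = μ ^ a) →
        (r σ).det - (a : A) ∈ Ideal.span {((p ^ n : ℕ) : A)} := by
  unfold GaloisRepAdic.DetIsCyclotomic
  simp only [Unfold.det_rho]

end Fermat.Agent.S56
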