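/-
S56 / DICT, leaf SELLEVEL (task S56-SELLEVEL).  A continuous representation over `k[ε]` unramified
outside `S` is trivial on a level of `lvlS S`.
-/
import Fermat.Agent.S56.Dict.Unfold
import Fermat.Agent.S56.Dict.DMat
import Fermat.Agent.S55.Bridge.SmoothRep
import Fermat.Agent.S55.Arith.Defs
import Fermat.Agent.S53.Galois

set_option autoImplicit false

namespace Fermat.Agent.S56

open IsLocalRing Fermat.Agent.S53 Fermat.Agent.S53.Tangent Fermat.Agent.S55

variable {𝒪 : Type} [CommRing 𝒪] [IsLocalRing 𝒪]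

/-- `S53.matCont_iff_of_nilpotent` (with `S53.isNilpotent_maximalIdeal_of_test
Dk.isArtinianTestAlgebra`) gives a finite extension whose fixing subgroup lies in `ker r`;
apply `S55.Bridge.exists_level_of_normal_subgroup` to `ker r`
(`Normal ℚ F` gives `IsStableField F`). -/
theorem exists_level_of_unram (ST : Finset Nat.Primes) (r : Gal →* M2 (Dk 𝒪)) (hr : MatCont r)
    (hunr : ∀ q : Nat.Primes, q ∉ ST → (toAdic r hr).IsUnramifiedAt q) :
    ∃ N ∈ (lvlS ST).carrier, ∀ n ∈ N, r n = 1 := by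
  obtain ⟨L, hL, h1⟩ := (matCont_iff_of_nilpotent
    (isNilpotent_maximalIdeal_of_test (𝒪 := 𝒪) Dk.isArtinianTestAlgebra) r).mp hr
  have hle : L.fixingSubgroup ≤ r.ker := by
    intro σ hσ
    rw [MonoidHom.mem_ker]
    exact h1 σ ((IntermediateField.mem_fixingSubgroup_iff L σ).1 hσ)
  obtain ⟨F, hF, hn, hfix⟩ := Bridge.exists_level_of_normal_subgroup ST r.ker L hle (by
    intro q hq P hP σ hσ
    rw [MonoidHom.mem_ker]
    exact (toAdic_isUnramifiedAt_iff r hr q).1 (hunr q hq) P hP σ hσ)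
  refine ⟨F.fixingSubgroup, ⟨F, hF, ?_, rfl⟩, fun n hn' => ?_⟩
  · intro g x hx
    have hgal : IsGalois ℚ (AlgebraicClosure ℚ) := Fermat.Agent.Lib.Frobenius.isGalois_rat
    have h2 := (IntermediateField.normal_iff_forall_map_le' (K := F)).1 hn g
    exact h2 ⟨x, hx, rfl⟩
  · rw [hfix] at hn'
    exact hn'

/-- Consequence for the cocycle. -/
theorem coc_level_of_unram (ST : Finset Nat.Primes)
    (s : Gal →* M2 (ResidueField 𝒪)) (c : Gal → M2 (ResidueField 𝒪))
    (r : Gal →* M2 (Dk 𝒪)) (hr : MatCont r) (hrc : ∀ g, r g = dmat (s g) (c g * s g))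
    (hunr : ∀ q : Nat.Primes, q ∉ ST → (toAdic r hr).IsUnramifiedAt q) :
    ∃ N ∈ (lvlS ST).carrier, ∀ g, ∀ n ∈ N, c (g * n) = c g := by
  obtain ⟨N, hN, h1⟩ := exists_level_of_unram ST r hr hunr
  refine ⟨N, hN, fun g n hn => ?_⟩
  have h2 : r (g * n) = r g := by rw [map_mul, h1 n hn, mul_one]
  rw [hrc, hrc] at h2
  obtain ⟨h3, h4⟩ := dmat_inj h2
  rw [h3] at h4
  have h5 := congrArg (· * s g⁻¹) h4
  simp only [mul_assoc, s_mul_inv, mul_one] at h5
  exact h5

end Fermat.Agent.S56
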