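/-
S56 / DICT, leaf SELTRACE (task S56-SELTRACE).  Fixed determinant ⇒ trace zero cocycle.
-/
import Fermat.Agent.S56.Dict.Unfold
import Fermat.Agent.S56.Dict.DMat

set_option autoImplicit false

namespace Fermat.Agent.S56

open IsLocalRing Fermat.Agent.S53 Fermat.Agent.S53.Tangent

/-- Every automorphism acts on `μ_p` by a power (`μ_p ⊆ ℚ̄` is cyclic). -/
theorem exists_cyclo_exp (p : ℕ) [Fact p.Prime] (σ : Gal) :
    ∃ a : ℕ, ∀ μ : AlgebraicClosure ℚ, μ ^ p ^ 1 = 1 → σ μ = μ ^ a := by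
  have hp : p.Prime := Fact.out
  have : NeZero p := ⟨hp.ne_zero⟩
  obtain ⟨ζ, hζ⟩ := HasEnoughRootsOfUnity.exists_primitiveRoot (AlgebraicClosure ℚ) p
  have h1 : (σ ζ) ^ p = 1 := by rw [← map_pow, hζ.pow_eq_one, map_one]
  obtain ⟨a, -, ha⟩ := hζ.eq_pow_of_pow_eq_one h1
  refine ⟨a, fun μ hμ => ?_⟩
  rw [pow_one] at hμ
  obtain ⟨i, -, rfl⟩ := hζ.eq_pow_of_pow_eq_one hμ
  rw [map_pow, ← ha, ← pow_mul, ← pow_mul, mul_comm]

variable {𝒪 : Type} [CommRing 𝒪] [IsLocalRing 𝒪]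

/-- `p = 0` in `k[ε]`, so `det (r g) = a` exactly; by `det_dmat` its `ε`-component is
`tr (c g) * det (s g)`, and `det (s g)` is a unit. -/
theorem trace_eq_zero_of_det (p : ℕ) [Fact p.Prime] (hp𝒪 : (p : 𝒪) ∈ maximalIdeal 𝒪)
    (s : Gal →* M2 (ResidueField 𝒪)) (c : Gal → M2 (ResidueField 𝒪))
    (r : Gal →* M2 (Dk 𝒪)) (hr : MatCont r) (hrc : ∀ g, r g = dmat (s g) (c g * s g))
    (hdet : (toAdic r hr).DetIsCyclotomic p) (g : Gal) : (c g).trace = 0 := by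
  obtain ⟨a, ha⟩ := exists_cyclo_exp p g
  have h1 := ((toAdic_detIsCyclotomic_iff r hr p).mp hdet).2 1 g a ha
  have hnat : ∀ n : ℕ, ((n : ℕ) : Dk 𝒪) = Dk.mk (residue 𝒪 (n : 𝒪)) 0 := by
    intro n
    rw [← Dk.algebraMap_eq_mk, map_natCast]
  have hp0 : ((p ^ 1 : ℕ) : Dk 𝒪) = 0 := by
    rw [pow_one, hnat, (residue_eq_zero_iff _).mpr hp𝒪, Dk.mk_zero]
  rw [hp0, Ideal.mem_span_singleton, zero_dvd_iff, sub_eq_zero, hrc, det_dmat, hnat] at h1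
  have h2 := (Dk.mk_inj h1).2
  have hdet0 : (s g).det ≠ 0 := by
    intro h0
    have h3 := congrArg Matrix.det (s_mul_inv s g)
    rw [Matrix.det_mul, h0, zero_mul, Matrix.det_one] at h3
    exact zero_ne_one h3
  exact (mul_eq_zero.mp h2).resolve_right hdet0

end Fermat.Agent.S56
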