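/-
S56 / DICT: proof of `BridgeStatement` (S56/Interface.lean) from the leaves SELTRACE and SELLEVEL.
-/
import Fermat.Agent.S56.Interface
import Fermat.Agent.S56.Dict.DMatCoc
import Fermat.Agent.S56.Dict.SelTrace
import Fermat.Agent.S56.Dict.SelLevel

set_option autoImplicit false

namespace Fermat.Agent.S56

open IsLocalRing Fermat.Agent.S53 Fermat.Agent.S53.Tangent Fermat.Agent.S55

theorem natCast_mem_maximalIdeal_of_charP {𝒪 : Type} [CommRing 𝒪] [IsLocalRing 𝒪] (p : ℕ)
    [CharP (ResidueField 𝒪) p] : (p : 𝒪) ∈ maximalIdeal 𝒪 := by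
  rw [← residue_eq_zero_iff, map_natCast, CharP.cast_eq_zero]

theorem bridgeStatement : BridgeStatement := by
  intro 𝒪 _ _ _ p _ _ s c r hr hrc hdet S hunr
  have htr := trace_eq_zero_of_det p (natCast_mem_maximalIdeal_of_charP p) s c r hr hrc hdet
  refine ⟨{ toFun := fun g => Ad0.mk (c g) (htr g)
            map_mul' := fun g g' => Ad0.ext (isCoc_of_mul s c r hrc g g')
            level' := ?_ }, fun g => rfl⟩
  obtain ⟨N, hN, hc⟩ := coc_level_of_unram S s c r hr hrc hunr
  exact ⟨N, hN, fun g n hn => Ad0.ext (hc g n hn)⟩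

end Fermat.Agent.S56
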