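/-
S56 / DICT, leaf GOODBC (task S56-GOODBC).  Determinant, unramifiedness and unipotence pass to base
changes along local homomorphisms.
-/
import Fermat.Agent.S56.Dict.Defs

set_option autoImplicit false

namespace Fermat.Agent.S56

open IsLocalRing

variable {A B : Type} [CommRing A] [IsLocalRing A] [CommRing B] [IsLocalRing B]
  {ρ : GaloisRepAdic A}

/-- `LinearMap.det_baseChange`; `φ` maps `span {p ^ n}` into `span {p ^ n}`. -/
theorem detIsCyclotomic_baseChangeAlong {p : ℕ} (φ : A →+* B) (hφ : IsLocalHom φ)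
    (h : ρ.DetIsCyclotomic p) : (ρ.baseChangeAlong φ hφ).DetIsCyclotomic p := by
  letI : Algebra A B := φ.toAlgebra
  refine ⟨?_, fun n σ a hσ => ?_⟩
  · have h1 : φ (p : A) ∈ maximalIdeal B := by
      haveI := hφ
      exact map_nonunit φ _ h.1
    rwa [map_natCast] at h1
  · have h1 := h.2 n σ a hσ
    have h2 : LinearMap.det ((ρ.baseChangeAlong φ hφ).ρ σ) = φ (LinearMap.det (ρ.ρ σ)) :=
      LinearMap.det_baseChange (ρ.ρ σ)
    rw [h2]
    obtain ⟨c, hc⟩ := Ideal.mem_span_singleton'.mp h1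
    refine Ideal.mem_span_singleton'.mpr ⟨φ c, ?_⟩
    have h3 := congrArg φ hc
    rw [map_mul, map_sub, map_natCast, map_natCast] at h3
    exact h3

theorem isUnramifiedAt_baseChangeAlong {q : ℕ} (φ : A →+* B) (hφ : IsLocalHom φ)
    (h : ρ.IsUnramifiedAt q) : (ρ.baseChangeAlong φ hφ).IsUnramifiedAt q := by
  letI : Algebra A B := φ.toAlgebra
  intro P hP σ hσ
  have h1 := h P hP σ hσ
  have h2 : (ρ.baseChangeAlong φ hφ).ρ σ = (ρ.ρ σ).baseChange B := rfl
  rw [h2, h1, LinearMap.baseChange_one]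
  rfl

/-- `LinearMap.charpoly_baseChange`. -/
theorem isUnipotentOnInertiaAt_baseChangeAlong {q : ℕ} (φ : A →+* B) (hφ : IsLocalHom φ)
    (h : ρ.IsUnipotentOnInertiaAt q) : (ρ.baseChangeAlong φ hφ).IsUnipotentOnInertiaAt q := by
  letI : Algebra A B := φ.toAlgebra
  intro P hP σ hσ
  have h1 := h P hP σ hσ
  have h2 : LinearMap.charpoly ((ρ.baseChangeAlong φ hφ).ρ σ) =
      (LinearMap.charpoly (ρ.ρ σ)).map (algebraMap A B) :=
    LinearMap.charpoly_baseChange (ρ.ρ σ) B
  rw [h2, h1]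
  simp

end Fermat.Agent.S56
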