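/-
S56 / DICT, leaf GOODEQUIV (task S56-GOODEQUIV).  The local conditions are invariant under
equivalence of representations.
-/
import Fermat.Agent.S56.Dict.Defs

set_option autoImplicit false

namespace Fermat.Agent.S56

open IsLocalRing

variable {A : Type} [CommRing A] [IsLocalRing A] {ρ ρ' : GaloisRepAdic A}

/-- The basic fact: `ρ' σ = e ∘ ρ σ ∘ e⁻¹`. -/
theorem rho_eq_conj (e : GaloisRepAdic.Equiv ρ ρ')
    (σ : AlgebraicClosure ℚ ≃ₐ[ℚ] AlgebraicClosure ℚ) :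
    ρ'.ρ σ = e.toLinearEquiv.conj (ρ.ρ σ) := by
  refine LinearMap.ext fun x => ?_
  rw [LinearEquiv.conj_apply_apply, e.map_apply, LinearEquiv.apply_symm_apply]

theorem detIsCyclotomic_of_isEquiv {p : ℕ} (he : ρ.IsEquiv ρ') (h : ρ.DetIsCyclotomic p) :
    ρ'.DetIsCyclotomic p := by
  obtain ⟨e⟩ := he
  refine ⟨h.1, fun n σ a hσ => ?_⟩
  rw [rho_eq_conj e, LinearEquiv.conj_apply, LinearMap.comp_assoc, LinearMap.det_conj]
  exact h.2 n σ a hσ

theorem isUnramifiedAt_of_isEquiv {q : ℕ} (he : ρ.IsEquiv ρ') (h : ρ.IsUnramifiedAt q) :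
    ρ'.IsUnramifiedAt q := by
  obtain ⟨e⟩ := he
  intro P hP σ hσ
  rw [rho_eq_conj e, h P hP σ hσ]
  refine LinearMap.ext fun x => ?_
  rw [LinearEquiv.conj_apply_apply, Module.End.one_apply, Module.End.one_apply,
    LinearEquiv.apply_symm_apply]

theorem isUnipotentOnInertiaAt_of_isEquiv {q : ℕ} (he : ρ.IsEquiv ρ')
    (h : ρ.IsUnipotentOnInertiaAt q) : ρ'.IsUnipotentOnInertiaAt q := by
  obtain ⟨e⟩ := he
  intro P hP σ hσ
  rw [rho_eq_conj e, LinearEquiv.charpoly_conj]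
  exact h P hP σ hσ

end Fermat.Agent.S56
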