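/-
S56 / DICT, leaf GOODEQUIVSO (task S56-GOODEQUIVSO).  Strict ordinarity is invariant under
equivalence of representations.
-/
import Fermat.Agent.S56.Dict.Defs

set_option autoImplicit false

namespace Fermat.Agent.S56

open IsLocalRing

variable {A : Type} [CommRing A] [IsLocalRing A] {ρ ρ' : GaloisRepAdic A}

/-- Transport `L` to `L.map e` and the basis `b` to `b.map e`. -/
theorem isStrictOrdinaryAt_of_isEquiv {p : ℕ} (he : ρ.IsEquiv ρ')
    (h : ρ.IsStrictOrdinaryAt p) : ρ'.IsStrictOrdinaryAt p := by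
  obtain ⟨E⟩ := he
  set e : ρ.V ≃ₗ[A] ρ'.V := E.toLinearEquiv with he
  have hE : ∀ σ x, e (ρ.ρ σ x) = ρ'.ρ σ (e x) := E.map_apply
  refine ⟨h.1, fun P hP => ?_⟩
  obtain ⟨L, ⟨b, hb⟩, hD, hI, hS⟩ := h.2 P hP
  -- membership in the transported line
  have hmem : ∀ v : ρ.V, e v ∈ L.map (e : ρ.V →ₗ[A] ρ'.V) ↔ v ∈ L := by
    intro v
    constructor
    · rintro ⟨w, hw, hwv⟩
      have : w = v := e.injective hwv
      exact this ▸ hw
    · intro hv
      exact ⟨v, hv, rfl⟩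
  have hsurj : ∀ v' : ρ'.V, ∃ v : ρ.V, e v = v' := e.surjective
  refine ⟨L.map (e : ρ.V →ₗ[A] ρ'.V), ⟨b.map e, ?_⟩, ?_, ?_, ?_⟩
  · rw [hb, Submodule.map_span, Set.image_singleton, Module.Basis.map_apply]
    rfl
  · intro σ hσ v' hv'
    obtain ⟨v, rfl⟩ := hsurj v'
    rw [← hE, hmem]
    exact hD σ hσ v ((hmem v).1 hv')
  · intro σ hσ v'
    obtain ⟨v, rfl⟩ := hsurj v'
    rw [← hE, ← map_sub, hmem]
    exact hI σ hσ v
  · intro σ hσ
    obtain ⟨x, z, h1, h2, h3⟩ := hS σ hσ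
    refine ⟨x, z, ?_, ?_, h3⟩
    · intro w' hw'
      obtain ⟨w, rfl⟩ := hsurj w'
      rw [← hE, h1 w ((hmem w).1 hw'), map_smul]
    · intro v'
      obtain ⟨v, rfl⟩ := hsurj v'
      rw [← hE, ← map_smul, ← map_sub, hmem]
      exact h2 v

end Fermat.Agent.S56
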