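/-
S56 / DICT, leaf GOODFLBC (task S56-GOODFLBC).  Levels of a base change along a surjection.
-/
import Fermat.Agent.S56.Dict.Defs

set_option autoImplicit false

namespace Fermat.Agent.S56

open IsLocalRing
open scoped TensorProduct

/-- Coordinates of an element of `I • ⊤` lie in `I`. -/
private theorem goodFlBC_repr_mem {R M ι : Type} [CommRing R] [AddCommGroup M] [Module R M]
    (b : Module.Basis ι R M) (I : Ideal R) {x : M} (hx : x ∈ I • (⊤ : Submodule R M)) (i : ι) :
    b.repr x i ∈ I := by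
  refine Submodule.smul_induction_on (p := fun x => b.repr x i ∈ I) hx ?_ ?_
  · intro r hr m _
    rw [map_smul, Finsupp.smul_apply, smul_eq_mul]
    exact I.mul_mem_right _ hr
  · intro x y hx hy
    rw [map_add, Finsupp.add_apply]
    exact I.add_mem hx hy

/-- An element all of whose coordinates lie in `I` lies in `I • ⊤`. -/
private theorem goodFlBC_mem_of_repr {R M ι : Type} [CommRing R] [AddCommGroup M] [Module R M]
    [Fintype ι] (b : Module.Basis ι R M) (I : Ideal R) {x : M} (hx : ∀ i, b.repr x i ∈ I) :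
    x ∈ I • (⊤ : Submodule R M) := by
  rw [← b.sum_repr x]
  exact Submodule.sum_mem _ fun i _ => Submodule.smul_mem_smul (hx i) Submodule.mem_top

/-- The general statement, for an algebra `A → B` with surjective structure map, a finite free
`A`-module `M` and a family of endomorphisms. -/
private theorem goodFlBC_general {A B M : Type} [CommRing A] [CommRing B] [Algebra A B]
    [AddCommGroup M] [Module A M] [Module.Free A M] [Module.Finite A M]
    (hs : Function.Surjective (algebraMap A B)) (J : Ideal B) :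
    ∃ u : (M ⧸ ((J.comap (algebraMap A B)) • (⊤ : Submodule A M))) ≃+
        ((B ⊗[A] M) ⧸ (J • (⊤ : Submodule B (B ⊗[A] M)))),
      ∀ v : M, u (Submodule.Quotient.mk v) = Submodule.Quotient.mk ((1 : B) ⊗ₜ[A] v) := by
  classical
  let b := Module.Free.chooseBasis A M
  let f : M →ₛₗ[algebraMap A B] (B ⊗[A] M) :=
    { toFun := fun v => (1 : B) ⊗ₜ[A] v
      map_add' := fun v w => TensorProduct.tmul_add _ _ _
      map_smul' := fun a v => by
        rw [TensorProduct.tmul_smul, algebraMap_smul] }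
  have hf : ∀ v, f v = (1 : B) ⊗ₜ[A] v := fun _ => rfl
  have hle : (J.comap (algebraMap A B)) • (⊤ : Submodule A M) ≤
      Submodule.comap f (J • (⊤ : Submodule B (B ⊗[A] M))) := by
    intro x hx
    refine Submodule.smul_induction_on
      (p := fun x => x ∈ Submodule.comap f (J • (⊤ : Submodule B (B ⊗[A] M)))) hx ?_ ?_
    · intro a ha m _
      rw [Submodule.mem_comap, map_smulₛₗ]
      exact Submodule.smul_mem_smul ha Submodule.mem_top
    · intro x y hx hy
      exact Submodule.add_mem _ hx hy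
  let F := Submodule.mapQ _ _ f hle
  have hF : ∀ v : M, F (Submodule.Quotient.mk v) = Submodule.Quotient.mk ((1 : B) ⊗ₜ[A] v) :=
    fun v => Submodule.mapQ_apply _ _ _ _
  have hinj : Function.Injective F := by
    rw [injective_iff_map_eq_zero]
    intro x hx
    obtain ⟨v, rfl⟩ := Submodule.Quotient.mk_surjective _ x
    rw [hF, Submodule.Quotient.mk_eq_zero] at hx
    rw [Submodule.Quotient.mk_eq_zero]
    refine goodFlBC_mem_of_repr b _ fun i => ?_
    have h1 := goodFlBC_repr_mem (Algebra.TensorProduct.basis B b) J hx i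
    rw [Algebra.TensorProduct.basis_repr_tmul, one_smul, Finsupp.mapRange_apply] at h1
    exact h1
  have hsurj : Function.Surjective F := by
    intro y
    obtain ⟨t, rfl⟩ := Submodule.Quotient.mk_surjective _ y
    have key : ∃ v : M, t = (1 : B) ⊗ₜ[A] v := by
      induction t using TensorProduct.induction_on with
      | zero => exact ⟨0, (TensorProduct.tmul_zero _ _).symm⟩
      | tmul c m =>
        obtain ⟨a, rfl⟩ := hs c
        refine ⟨a • m, ?_⟩
        rw [TensorProduct.tmul_smul, TensorProduct.smul_tmul', Algebra.smul_def, mul_one]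
      | add x y hx hy =>
        obtain ⟨v, rfl⟩ := hx
        obtain ⟨w, rfl⟩ := hy
        exact ⟨v + w, (TensorProduct.tmul_add _ _ _).symm⟩
    obtain ⟨v, rfl⟩ := key
    exact ⟨Submodule.Quotient.mk v, hF v⟩
  exact ⟨AddEquiv.ofBijective F.toAddMonoidHom ⟨hinj, hsurj⟩, hF⟩

variable {A B : Type} [CommRing A] [IsLocalRing A] [CommRing B] [IsLocalRing B]

/-- For surjective `φ : A → B` and `J ⊆ B`:  `V / φ⁻¹(J) V ≃ (B ⊗_A V) / J (B ⊗_A V)`,
`v ↦ 1 ⊗ v`, compatibly with the Galois actions. -/
theorem exists_level_equiv_baseChangeAlong {ρ : GaloisRepAdic A} (φ : A →+* B)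
    (hφ : IsLocalHom φ) (hs : Function.Surjective φ) (J : Ideal B) :
    ∃ u : (ρ.V ⧸ ((J.comap φ) • (⊤ : Submodule A ρ.V))) ≃+
        ((ρ.baseChangeAlong φ hφ).V ⧸ (J • (⊤ : Submodule B (ρ.baseChangeAlong φ hφ).V))),
      ∀ σ x, u (ρ.levelAction (J.comap φ) σ x) =
        (ρ.baseChangeAlong φ hφ).levelAction J σ (u x) := by
  let _ : Algebra A B := φ.toAlgebra
  obtain ⟨u, hu⟩ := goodFlBC_general (A := A) (B := B) (M := ρ.V) hs J
  refine ⟨u, fun σ x => ?_⟩
  obtain ⟨v, rfl⟩ := Submodule.Quotient.mk_surjective _ x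
  have h1 : ρ.levelAction (J.comap φ) σ (Submodule.Quotient.mk v) =
      Submodule.Quotient.mk (ρ.ρ σ v) := Submodule.mapQ_apply _ _ _ _
  have h2 : (ρ.baseChangeAlong φ hφ).levelAction J σ
      (Submodule.Quotient.mk (p := J • (⊤ : Submodule B (B ⊗[A] ρ.V))) ((1 : B) ⊗ₜ[A] v)) =
      Submodule.Quotient.mk (p := J • (⊤ : Submodule B (B ⊗[A] ρ.V)))
        ((1 : B) ⊗ₜ[A] (ρ.ρ σ v)) := rfl
  rw [h1]
  exact (hu _).trans (h2.symm.trans (congrArg _ (hu v).symm))

end Fermat.Agent.S56
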