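/-
S56 / DICT, leaf GOODFLCORE (task S56-GOODFLCORE).  The existence of a finite flat model of a level
`V / I V` only depends on the abelian group with Galois action.
-/
import Fermat.Agent.S56.Dict.Defs

set_option autoImplicit false

namespace Fermat.Agent.S56

open IsLocalRing

/-- The body of `GaloisRepAdic.IsFlatAt` for one ideal. -/
def FlatLevel {A : Type} [CommRing A] [IsLocalRing A] (ρ : GaloisRepAdic A) (p : ℕ)
    (I : Ideal A) : Prop :=
  ∃ (H : Type) (_ : CommRing H) (_ : HopfAlgebra (GaloisRep.ratLocalizedAt p) H),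
    Module.Finite (GaloisRep.ratLocalizedAt p) H ∧
    Module.Flat (GaloisRep.ratLocalizedAt p) H ∧
    Coalgebra.IsCocomm (GaloisRep.ratLocalizedAt p) H ∧
    ∃ e : WithConv (H →ₐ[GaloisRep.ratLocalizedAt p] AlgebraicClosure ℚ) ≃
        (ρ.V ⧸ (I • (⊤ : Submodule A ρ.V))),
      (∀ f g : WithConv (H →ₐ[GaloisRep.ratLocalizedAt p] AlgebraicClosure ℚ),
        e (f * g) = e f + e g) ∧
      ∀ (σ : AlgebraicClosure ℚ ≃ₐ[ℚ] AlgebraicClosure ℚ)
        (f g : WithConv (H →ₐ[GaloisRep.ratLocalizedAt p] AlgebraicClosure ℚ)),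
        (∀ h : H, g h = σ (f h)) → e g = ρ.levelAction I σ (e f)

theorem isFlatAt_iff {A : Type} [CommRing A] [IsLocalRing A] (ρ : GaloisRepAdic A) (p : ℕ) :
    ρ.IsFlatAt p ↔ Finite (ResidueField A) ∧ ∀ I : Ideal A, Finite (A ⧸ I) → FlatLevel ρ p I :=
  Iff.rfl

/-- Compose `e` with `u`. -/
theorem flatLevel_transport {A B : Type} [CommRing A] [IsLocalRing A] [CommRing B] [IsLocalRing B]
    {ρ : GaloisRepAdic A} {ρ' : GaloisRepAdic B} {p : ℕ} {I : Ideal A} {J : Ideal B}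
    (u : (ρ.V ⧸ (I • (⊤ : Submodule A ρ.V))) ≃+ (ρ'.V ⧸ (J • (⊤ : Submodule B ρ'.V))))
    (hu : ∀ σ x, u (ρ.levelAction I σ x) = ρ'.levelAction J σ (u x))
    (h : FlatLevel ρ p I) : FlatLevel ρ' p J := by
  obtain ⟨H, i1, i2, hfin, hflat, hco, e, hadd, hgal⟩ := h
  refine ⟨H, i1, i2, hfin, hflat, hco, e.trans u.toEquiv, fun f g => ?_, fun σ f g hfg => ?_⟩
  · show u (e (f * g)) = u (e f) + u (e g)
    rw [hadd, map_add]
  · show u (e g) = ρ'.levelAction J σ (u (e f))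
    rw [hgal σ f g hfg, hu]

end Fermat.Agent.S56
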