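/-
S56 / DICT, leaf GOODFLLEVEL (task S56-GOODFLLEVEL).  Comparison of the levels `V / I V`.
-/
import Fermat.Agent.S56.Dict.Defs

set_option autoImplicit false

namespace Fermat.Agent.S56

open IsLocalRing

theorem exists_level_equiv_of_isEquiv {A : Type} [CommRing A] [IsLocalRing A]
    {ρ ρ' : GaloisRepAdic A} (he : ρ.IsEquiv ρ') (I : Ideal A) :
    ∃ u : (ρ.V ⧸ (I • (⊤ : Submodule A ρ.V))) ≃+ (ρ'.V ⧸ (I • (⊤ : Submodule A ρ'.V))),
      ∀ σ x, u (ρ.levelAction I σ x) = ρ'.levelAction I σ (u x) := by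
  obtain ⟨e⟩ := he
  have hmap : (I • (⊤ : Submodule A ρ.V)).map (e.toLinearEquiv : ρ.V →ₗ[A] ρ'.V) =
      I • (⊤ : Submodule A ρ'.V) := by
    rw [Submodule.map_smul'', Submodule.map_top, LinearEquiv.range]
  refine ⟨(Submodule.Quotient.equiv _ _ e.toLinearEquiv hmap).toAddEquiv, ?_⟩
  intro σ x
  obtain ⟨v, rfl⟩ := Submodule.Quotient.mk_surjective _ x
  show Submodule.Quotient.equiv _ _ e.toLinearEquiv hmap
      (ρ.levelAction I σ (Submodule.Quotient.mk v)) =
    ρ'.levelAction I σ (Submodule.Quotient.equiv _ _ e.toLinearEquiv hmap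
      (Submodule.Quotient.mk v))
  rw [GaloisRepAdic.levelAction, GaloisRepAdic.levelAction, Submodule.mapQ_apply,
    Submodule.Quotient.equiv_apply, Submodule.Quotient.equiv_apply, Submodule.mapQ_apply,
    Submodule.mapQ_apply, Submodule.mapQ_apply]
  exact congrArg _ (e.map_apply σ v)

variable {A B : Type} [CommRing A] [IsLocalRing A] [CommRing B] [IsLocalRing B]

theorem finite_residueField_of_surjective (φ : A →+* B) (hφ : IsLocalHom φ)
    (hs : Function.Surjective φ) (h : Finite (ResidueField A)) : Finite (ResidueField B) := by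
  have hsurj : Function.Surjective (ResidueField.map φ) := by
    intro y
    obtain ⟨b, rfl⟩ := IsLocalRing.residue_surjective y
    obtain ⟨a, rfl⟩ := hs b
    exact ⟨IsLocalRing.residue A a, rfl⟩
  exact Finite.of_surjective _ hsurj

theorem finite_quotient_comap (φ : A →+* B) (hs : Function.Surjective φ) (J : Ideal B)
    (hJ : Finite (B ⧸ J)) : Finite (A ⧸ J.comap φ) := by
  have hinj : Function.Injective (Ideal.quotientMap J φ le_rfl) :=
    Ideal.quotientMap_injective
  exact Finite.of_injective _ hinj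

end Fermat.Agent.S56
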