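/-
S56 / DICT, leaf GOODFL: flatness is invariant under equivalence and passes to base changes along
SURJECTIVE local homomorphisms.  Assembly from the two transport leaves.
-/
import Fermat.Agent.S56.Dict.GoodFlCore
import Fermat.Agent.S56.Dict.GoodFlLevel
import Fermat.Agent.S56.Dict.GoodFlBC

set_option autoImplicit false

namespace Fermat.Agent.S56

open IsLocalRing

theorem isFlatAt_of_isEquiv {A : Type} [CommRing A] [IsLocalRing A] {ρ ρ' : GaloisRepAdic A}
    {p : ℕ} (he : ρ.IsEquiv ρ') (h : ρ.IsFlatAt p) : ρ'.IsFlatAt p := by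
  refine ⟨h.1, fun I hI => ?_⟩
  obtain ⟨u, hu⟩ := exists_level_equiv_of_isEquiv he I
  exact flatLevel_transport u hu (h.2 I hI)

theorem isFlatAt_baseChangeAlong {A B : Type} [CommRing A] [IsLocalRing A] [CommRing B]
    [IsLocalRing B] {ρ : GaloisRepAdic A} {p : ℕ} (φ : A →+* B) (hφ : IsLocalHom φ)
    (hs : Function.Surjective φ) (h : ρ.IsFlatAt p) : (ρ.baseChangeAlong φ hφ).IsFlatAt p := by
  refine ⟨finite_residueField_of_surjective φ hφ hs h.1, fun J hJ => ?_⟩
  obtain ⟨u, hu⟩ := exists_level_equiv_baseChangeAlong (ρ := ρ) φ hφ hs J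
  exact flatLevel_transport u hu (h.2 (J.comap φ) (finite_quotient_comap φ hs J hJ))

end Fermat.Agent.S56
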