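/-
S56 / DICT, leaf GOODSO (task S56-GOODSO).  Strict ordinarity passes to base changes along local
homomorphisms.
-/
import Fermat.Agent.S56.Dict.Defs

set_option autoImplicit false

namespace Fermat.Agent.S56

open IsLocalRing

section Aux

open scoped TensorProduct

variable {A B V : Type} [CommRing A] [CommRing B] [Algebra A B] [AddCommGroup V] [Module A V]

theorem goodSO_tmul_mem (v₀ : V) (c : B) {v : V} (hv : v ∈ Submodule.span A {v₀}) :
    c ⊗ₜ[A] v ∈ Submodule.span B {(1 : B) ⊗ₜ[A] v₀} := by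
  obtain ⟨a, rfl⟩ := Submodule.mem_span_singleton.1 hv
  rw [Submodule.mem_span_singleton]
  refine ⟨c * algebraMap A B a, ?_⟩
  rw [TensorProduct.smul_tmul', smul_eq_mul, mul_one, TensorProduct.tmul_smul,
    TensorProduct.smul_tmul', Algebra.smul_def, mul_comm]

theorem goodSO_stable (v₀ : V) (f : Module.End A V)
    (hf : ∀ v ∈ Submodule.span A {v₀}, f v ∈ Submodule.span A {v₀}) :
    ∀ w ∈ Submodule.span B {(1 : B) ⊗ₜ[A] v₀},
      f.baseChange B w ∈ Submodule.span B {(1 : B) ⊗ₜ[A] v₀} := by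
  intro w hw
  obtain ⟨c, rfl⟩ := Submodule.mem_span_singleton.1 hw
  rw [map_smul, LinearMap.baseChange_tmul]
  exact Submodule.smul_mem _ _ (goodSO_tmul_mem v₀ 1 (hf _ (Submodule.mem_span_singleton_self _)))

theorem goodSO_quot (v₀ : V) (f : Module.End A V) (z : A)
    (hf : ∀ v : V, f v - z • v ∈ Submodule.span A {v₀}) :
    ∀ w : B ⊗[A] V,
      f.baseChange B w - algebraMap A B z • w ∈ Submodule.span B {(1 : B) ⊗ₜ[A] v₀} := by
  intro w
  induction w using TensorProduct.induction_on with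
  | zero => simp
  | tmul c v =>
    have e : f.baseChange B (c ⊗ₜ[A] v) - algebraMap A B z • c ⊗ₜ[A] v =
        c ⊗ₜ[A] (f v - z • v) := by
      rw [LinearMap.baseChange_tmul, TensorProduct.tmul_sub, TensorProduct.tmul_smul,
        algebraMap_smul]
    rw [e]
    exact goodSO_tmul_mem v₀ c (hf v)
  | add x y hx hy =>
    rw [map_add, smul_add, add_sub_add_comm]
    exact Submodule.add_mem _ hx hy

theorem goodSO_scalar (v₀ : V) (f : Module.End A V) (x : A)
    (hf : ∀ v ∈ Submodule.span A {v₀}, f v = x • v) :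
    ∀ w ∈ Submodule.span B {(1 : B) ⊗ₜ[A] v₀}, f.baseChange B w = algebraMap A B x • w := by
  intro w hw
  obtain ⟨c, rfl⟩ := Submodule.mem_span_singleton.1 hw
  rw [map_smul, LinearMap.baseChange_tmul, hf _ (Submodule.mem_span_singleton_self _),
    TensorProduct.tmul_smul, algebraMap_smul, smul_comm]

end Aux

variable {A B : Type} [CommRing A] [IsLocalRing A] [CommRing B] [IsLocalRing B]
  {ρ : GaloisRepAdic A}

open scoped TensorProduct in
/-- With `letI := φ.toAlgebra`: take `L' = B ∙ (1 ⊗ b 0)`, basis `Algebra.TensorProduct.basis B b`,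
scalars `φ x`, `φ z`; check every condition on pure tensors `c ⊗ v`
(`TensorProduct.induction_on`, `LinearMap.baseChange_tmul`); `v ∈ L → c ⊗ v ∈ L'`. -/
theorem isStrictOrdinaryAt_baseChangeAlong {p : ℕ} (φ : A →+* B) (hφ : IsLocalHom φ)
    (h : ρ.IsStrictOrdinaryAt p) : (ρ.baseChangeAlong φ hφ).IsStrictOrdinaryAt p := by
  let _ : Algebra A B := φ.toAlgebra
  obtain ⟨hp, h⟩ := h
  refine ⟨?_, fun P hP => ?_⟩
  · have e : (p : B) = φ (p : A) := (map_natCast φ p).symm
    rw [e]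
    exact map_nonunit φ _ hp
  obtain ⟨L, ⟨b, rfl⟩, hD, hI, hS⟩ := h P hP
  have hb' : Algebra.TensorProduct.basis B b 0 = (1 : B) ⊗ₜ[A] b 0 :=
    Algebra.TensorProduct.basis_apply b 0
  have hspan : Submodule.span B {(1 : B) ⊗ₜ[A] b 0} =
      Submodule.span B {Algebra.TensorProduct.basis B b 0} := by rw [hb']
  refine ⟨Submodule.span B {(1 : B) ⊗ₜ[A] b 0}, ⟨Algebra.TensorProduct.basis B b, hspan⟩,
    fun σ hσ => goodSO_stable (b 0) (ρ.ρ σ) (hD σ hσ), fun σ hσ w => ?_, fun σ hσ => ?_⟩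
  · have h1 := goodSO_quot (B := B) (b 0) (ρ.ρ σ) 1 (fun v => by rw [one_smul]; exact hI σ hσ v) w
    rw [map_one, one_smul] at h1
    exact h1
  · obtain ⟨x, z, hx, hz, hxz⟩ := hS σ hσ
    refine ⟨φ x, φ z, goodSO_scalar (b 0) (ρ.ρ σ) x hx, goodSO_quot (b 0) (ρ.ρ σ) z hz,
      fun n a hμ => ?_⟩
    obtain ⟨t, ht⟩ := Ideal.mem_span_singleton'.1 (hxz n a hμ)
    rw [Ideal.mem_span_singleton']
    refine ⟨φ t, ?_⟩
    have := congrArg φ ht
    rw [map_mul, map_sub, map_mul, map_natCast, map_natCast] at this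
    exact this

end Fermat.Agent.S56
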