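/-
S56 / DICT: the two conditions of the frozen statement are good conditions.
Assembly of the leaves `GoodEquiv`, `GoodBC`, `GoodSO`, `GoodFl`.
-/
import Fermat.Agent.S56.Dict.GoodEquiv
import Fermat.Agent.S56.Dict.GoodEquivSO
import Fermat.Agent.S56.Dict.GoodBC
import Fermat.Agent.S56.Dict.GoodSO
import Fermat.Agent.S56.Dict.GoodFl

set_option autoImplicit false

namespace Fermat.Agent.S56

open IsLocalRing

theorem isGoodCond_SO (𝒪 : Type) [CommRing 𝒪] (p : ℕ) (Smin T : Finset ℕ) :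
    IsGoodCond (condSO 𝒪 p Smin T) where
  of_isEquiv := by
    rintro A _ _ _ ρ ρ' he ⟨⟨h1, h2, h3⟩, h4⟩
    exact ⟨⟨detIsCyclotomic_of_isEquiv he h1, isStrictOrdinaryAt_of_isEquiv he h2,
      fun q hq hqT => isUnramifiedAt_of_isEquiv he (h3 q hq hqT)⟩,
      fun q hq hq' hqp => isUnipotentOnInertiaAt_of_isEquiv he (h4 q hq hq' hqp)⟩
  of_surjective := by
    rintro A B _ _ _ _ _ _ φ hφ - ρ ⟨⟨h1, h2, h3⟩, h4⟩
    exact ⟨⟨detIsCyclotomic_baseChangeAlong _ hφ h1, isStrictOrdinaryAt_baseChangeAlong _ hφ h2,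
      fun q hq hqT => isUnramifiedAt_baseChangeAlong _ hφ (h3 q hq hqT)⟩,
      fun q hq hq' hqp => isUnipotentOnInertiaAt_baseChangeAlong _ hφ (h4 q hq hq' hqp)⟩

theorem isGoodCond_Fl (𝒪 : Type) [CommRing 𝒪] (p : ℕ) (Smin T : Finset ℕ) :
    IsGoodCond (condFl 𝒪 p Smin T) where
  of_isEquiv := by
    rintro A _ _ _ ρ ρ' he ⟨⟨h1, h2, h3⟩, h4⟩
    exact ⟨⟨detIsCyclotomic_of_isEquiv he h1, isFlatAt_of_isEquiv he h2,
      fun q hq hqT => isUnramifiedAt_of_isEquiv he (h3 q hq hqT)⟩,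
      fun q hq hq' hqp => isUnipotentOnInertiaAt_of_isEquiv he (h4 q hq hq' hqp)⟩
  of_surjective := by
    rintro A B _ _ _ _ _ _ φ hφ hs ρ ⟨⟨h1, h2, h3⟩, h4⟩
    exact ⟨⟨detIsCyclotomic_baseChangeAlong _ hφ h1, isFlatAt_baseChangeAlong _ hφ hs h2,
      fun q hq hqT => isUnramifiedAt_baseChangeAlong _ hφ (h3 q hq hqT)⟩,
      fun q hq hq' hqp => isUnipotentOnInertiaAt_baseChangeAlong _ hφ (h4 q hq hq' hqp)⟩

end Fermat.Agent.S56
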