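/-
S56 / DICT, leaf DKINST (task S56-DKINST).  `k[ε]` is a legitimate test object of
`GaloisRep.DeformationRingData.universal`.
-/
import Fermat.Agent.S56.Dict.Defs

set_option autoImplicit false

namespace Fermat.Agent.S56

open IsLocalRing Fermat.Agent.S53 Fermat.Agent.S53.Tangent

variable {𝒪 : Type} [CommRing 𝒪] [IsLocalRing 𝒪]

instance instIsLocalHomDk : IsLocalHom (algebraMap 𝒪 (Dk 𝒪)) :=
  Dk.isArtinianTestAlgebra.isLocalHom

instance instIsArtinianRingDk : IsArtinianRing (Dk 𝒪) :=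
  Dk.isArtinianTestAlgebra.isArtinian

instance instIsNoetherianRingDk : IsNoetherianRing (Dk 𝒪) := inferInstance

/-- A module is adically complete for a nilpotent ideal. -/
theorem isAdicComplete_of_isNilpotent_dk {R M : Type*} [CommRing R] [AddCommGroup M] [Module R M]
    {I : Ideal R} (hI : IsNilpotent I) : IsAdicComplete I M := by
  obtain ⟨N, hN⟩ := hI
  have hbot : (I ^ N • ⊤ : Submodule R M) = ⊥ := by
    rw [hN, Ideal.zero_eq_bot, Submodule.bot_smul]
  have hH : IsHausdorff I M := ⟨fun x hx => by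
    have h := hx N
    rw [hbot, SModEq.bot] at h
    exact h⟩
  have hP : IsPrecomplete I M := ⟨fun f hf => ⟨f N, fun n => by
    rcases le_total n N with h | h
    · exact hf h
    · have h1 := hf h
      rw [hbot, SModEq.bot] at h1
      rw [h1]⟩⟩
  exact { hH, hP with }

/-- The maximal ideal is nilpotent (square zero). -/
instance instIsAdicCompleteDk : IsAdicComplete (maximalIdeal (Dk 𝒪)) (Dk 𝒪) := by
  refine isAdicComplete_of_isNilpotent_dk ?_
  have h := IsArtinianRing.isNilpotent_jacobson_bot (R := Dk 𝒪)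
  rwa [IsLocalRing.jacobson_eq_maximalIdeal ⊥ bot_ne_top] at h

theorem Dk.residue_comp_surjective :
    Function.Surjective (residue (Dk 𝒪) ∘ algebraMap 𝒪 (Dk 𝒪)) :=
  Dk.isArtinianTestAlgebra.residue_surjective

theorem Dk.mem_maximalIdeal_iff (a b : ResidueField 𝒪) :
    (Dk.mk a b : Dk 𝒪) ∈ maximalIdeal (Dk 𝒪) ↔ a = 0 := by
  rw [mem_maximalIdeal, mem_nonunits_iff, Dk.isUnit_mk, not_not]

theorem Dk.residue_mk (a b : ResidueField 𝒪) :
    residue (Dk 𝒪) (Dk.mk a b) = ResidueField.map (algebraMap 𝒪 (Dk 𝒪)) a := by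
  obtain ⟨c, rfl⟩ := residue_surjective a
  rw [ResidueField.map_residue, Dk.algebraMap_eq_mk, ← sub_eq_zero, ← map_sub,
    residue_eq_zero_iff]
  have : (Dk.mk (residue 𝒪 c) b - Dk.mk (residue 𝒪 c) 0 : Dk 𝒪) = Dk.mk 0 b := by
    rw [sub_eq_iff_eq_add, Dk.mk_add, zero_add, add_zero]
  rw [this, Dk.mem_maximalIdeal_iff]

/-- The projection `k[ε] → k` as an `𝒪`-algebra homomorphism. -/
noncomputable def Dk.fstHom : Dk 𝒪 →ₐ[𝒪] ResidueField 𝒪 where
  toFun z := TrivSqZeroExt.fst (show DualNumber (ResidueField 𝒪) from z)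
  map_one' := rfl
  map_mul' _ _ := rfl
  map_zero' := rfl
  map_add' _ _ := rfl
  commutes' _ := rfl

theorem Dk.fstHom_mk (a b : ResidueField 𝒪) : Dk.fstHom (Dk.mk a b : Dk 𝒪) = a := dmk_fst a b

theorem Dk.fstHom_surjective : Function.Surjective (Dk.fstHom : Dk 𝒪 →ₐ[𝒪] ResidueField 𝒪) :=
  fun a => ⟨Dk.mk a 0, Dk.fstHom_mk a 0⟩

end Fermat.Agent.S56
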