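/-
S56 / DICT, leaf HOMDK (task S56-HOMDK).  Elementary facts on `𝒪`-algebra homomorphisms
`φ : R → k[ε]` out of a local `𝒪`-algebra with residue field `k`.
-/
import Fermat.Agent.S56.Dict.Defs

set_option autoImplicit false

namespace Fermat.Agent.S56

open IsLocalRing Fermat.Agent.S53 Fermat.Agent.S53.Tangent

variable {𝒪 R : Type} [CommRing 𝒪] [IsLocalRing 𝒪] [CommRing R] [IsLocalRing R] [Algebra 𝒪 R]
  [IsLocalHom (algebraMap 𝒪 R)]

/-- If `φ y = (u, v)` with `u ≠ 0`, lift `u` to a unit `a` of `𝒪`; then `y - a` is a unit of `R`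
mapped to the non unit `(0, v)`. -/
theorem algHom_Dk_of_mem (φ : R →ₐ[𝒪] Dk 𝒪) {y : R} (hy : y ∈ maximalIdeal R) :
    ∃ b, φ y = Dk.mk 0 b := by
  obtain ⟨u, v, huv⟩ := Dk.exists_mk (φ y)
  by_cases hu : u = 0
  · exact ⟨v, by rw [huv, hu]⟩
  · exfalso
    obtain ⟨a, rfl⟩ := residue_surjective u
    have ha : IsUnit a := by
      by_contra h
      exact hu ((residue_eq_zero_iff a).2 ((mem_maximalIdeal a).2 h))
    have haR : IsUnit (algebraMap 𝒪 R a) := ha.map _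
    have hunit : IsUnit (y - algebraMap 𝒪 R a) := by
      by_contra h
      have h1 : y - algebraMap 𝒪 R a ∈ maximalIdeal R := (mem_maximalIdeal _).2 h
      have h2 : algebraMap 𝒪 R a ∈ maximalIdeal R := by
        have := (maximalIdeal R).sub_mem hy h1
        rwa [sub_sub_cancel] at this
      exact ((mem_maximalIdeal _).1 h2) haR
    have h3 : IsUnit (φ (y - algebraMap 𝒪 R a)) := hunit.map φ
    have h4 : φ (y - algebraMap 𝒪 R a) = Dk.mk 0 v := by
      rw [map_sub, AlgHom.commutes, huv, Dk.algebraMap_eq_mk, sub_eq_iff_eq_add, Dk.mk_add,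
        zero_add, add_zero]
    rw [h4, Dk.isUnit_mk] at h3
    exact h3 rfl

theorem algHom_Dk_isLocalHom (φ : R →ₐ[𝒪] Dk 𝒪) : IsLocalHom (φ : R →+* Dk 𝒪) := by
  refine ⟨fun x hx => ?_⟩
  by_contra h
  obtain ⟨b, hb⟩ := algHom_Dk_of_mem φ ((mem_maximalIdeal x).2 h)
  have hx' : IsUnit (φ x) := hx
  rw [hb, Dk.isUnit_mk] at hx'
  exact hx' rfl

/-- The first component of `φ x` is the residue class of `x`. -/
theorem algHom_Dk_fst (hres : Function.Surjective (residue R ∘ algebraMap 𝒪 R))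
    (φ : R →ₐ[𝒪] Dk 𝒪) (x : R) (a : ResidueField 𝒪)
    (h : residue R x = ResidueField.map (algebraMap 𝒪 R) a) : ∃ b, φ x = Dk.mk a b := by
  obtain ⟨a₀, rfl⟩ := residue_surjective a
  rw [ResidueField.map_residue] at h
  have hmem : x - algebraMap 𝒪 R a₀ ∈ maximalIdeal R := by
    rw [← residue_eq_zero_iff, map_sub, h, sub_self]
  obtain ⟨b, hb⟩ := algHom_Dk_of_mem φ hmem
  refine ⟨b, ?_⟩
  rw [map_sub, AlgHom.commutes, Dk.algebraMap_eq_mk, sub_eq_iff_eq_add, Dk.mk_add, zero_add,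
    add_zero] at hb
  exact hb

/-- If some `φ x` has a non zero `ε`-component then `φ` is surjective: subtract a constant to get
`(0, v)`, `v ≠ 0`, in the range, which contains all `(a, 0)`. -/
theorem algHom_Dk_snd_of_not_surjective (hres : Function.Surjective (residue R ∘ algebraMap 𝒪 R))
    (φ : R →ₐ[𝒪] Dk 𝒪) (h : ¬ Function.Surjective φ) (x : R) : ∃ a, φ x = Dk.mk a 0 := by
  obtain ⟨a, b, hab⟩ := Dk.exists_mk (φ x)
  by_cases hb : b = 0
  · exact ⟨a, by rw [hab, hb]⟩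
  · exfalso
    apply h
    intro z
    obtain ⟨c, d, rfl⟩ := Dk.exists_mk z
    obtain ⟨a₀, rfl⟩ := residue_surjective a
    obtain ⟨c₀, rfl⟩ := residue_surjective c
    obtain ⟨e₀, he₀⟩ := residue_surjective (d / b)
    refine ⟨algebraMap 𝒪 R c₀ + algebraMap 𝒪 R e₀ * (x - algebraMap 𝒪 R a₀), ?_⟩
    have h1 : φ (x - algebraMap 𝒪 R a₀) = Dk.mk 0 b := by
      rw [map_sub, AlgHom.commutes, hab, Dk.algebraMap_eq_mk, sub_eq_iff_eq_add, Dk.mk_add,
        zero_add, add_zero]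
    rw [map_add, map_mul, h1, AlgHom.commutes, AlgHom.commutes, Dk.algebraMap_eq_mk,
      Dk.algebraMap_eq_mk, Dk.mk_mul, Dk.mk_add, he₀, mul_zero, add_zero, zero_mul, add_zero,
      zero_add, div_mul_cancel₀ _ hb]

theorem algHom_Dk_eq_of_not_surjective (hres : Function.Surjective (residue R ∘ algebraMap 𝒪 R))
    (φ φ' : R →ₐ[𝒪] Dk 𝒪) (h : ¬ Function.Surjective φ) (h' : ¬ Function.Surjective φ') :
    φ = φ' := by
  ext x
  obtain ⟨a₀, ha₀⟩ := hres (residue R x)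
  have hx : residue R x = ResidueField.map (algebraMap 𝒪 R) (residue 𝒪 a₀) := by
    rw [ResidueField.map_residue]
    exact ha₀.symm
  obtain ⟨b, hb⟩ := algHom_Dk_fst hres φ x _ hx
  obtain ⟨b', hb'⟩ := algHom_Dk_fst hres φ' x _ hx
  obtain ⟨a, ha⟩ := algHom_Dk_snd_of_not_surjective hres φ h x
  obtain ⟨a', ha'⟩ := algHom_Dk_snd_of_not_surjective hres φ' h' x
  have e1 : b = 0 := (Dk.mk_inj (hb.symm.trans ha)).2
  have e2 : b' = 0 := (Dk.mk_inj (hb'.symm.trans ha')).2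
  rw [hb, hb', e1, e2]

end Fermat.Agent.S56
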