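/-
S56 / DICT, leaf HOMDKMAT (task S56-HOMDKMAT).  Pushing a matrix representation over `R` along
`φ : R → k[ε]`.
-/
import Fermat.Agent.S56.Dict.HomDk
import Fermat.Agent.S56.Dict.DMat

set_option autoImplicit false

namespace Fermat.Agent.S56

open IsLocalRing Fermat.Agent.S53 Fermat.Agent.S53.Tangent

variable {𝒪 R : Type} [CommRing 𝒪] [IsLocalRing 𝒪] [CommRing R] [IsLocalRing R] [Algebra 𝒪 R]
  [IsLocalHom (algebraMap 𝒪 R)]

/-- entrywise form of the hypothesis "`r` lifts `s`" -/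
theorem homDkMat_entry (s : Gal →* M2 (ResidueField 𝒪)) (r : Gal →* M2 R)
    (hrs : mapRep (residue R) r = mapRep (ResidueField.map (algebraMap 𝒪 R)) s) (g : Gal)
    (i j : Fin 2) : residue R (r g i j) = ResidueField.map (algebraMap 𝒪 R) (s g i j) := by
  have h := congrFun (congrFun (DFunLike.congr_fun hrs g) i) j
  rwa [mapRep_apply, mapRep_apply] at h

/-- Matrix form: a representation over `R` lifting `s` is pushed by `φ` to `(1 + ε c) s`. -/
theorem exists_coc_of_algHom (hres : Function.Surjective (residue R ∘ algebraMap 𝒪 R))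
    (s : Gal →* M2 (ResidueField 𝒪)) (r : Gal →* M2 R)
    (hrs : mapRep (residue R) r = mapRep (ResidueField.map (algebraMap 𝒪 R)) s)
    (φ : R →ₐ[𝒪] Dk 𝒪) :
    ∃ c : Gal → M2 (ResidueField 𝒪), ∀ g, mapRep (φ : R →+* Dk 𝒪) r g = dmat (s g) (c g * s g) := by
  choose e he using fun (g : Gal) (i j : Fin 2) =>
    algHom_Dk_fst hres φ (r g i j) (s g i j) (homDkMat_entry s r hrs g i j)
  refine ⟨fun g => Matrix.of (e g) * s g⁻¹, fun g => ?_⟩
  rw [Matrix.mul_assoc, s_inv_mul, Matrix.mul_one]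
  ext i j
  rw [mapRep_apply, dmat_apply]
  exact he g i j

/-- For a non surjective `φ` the cocycle is `0`. -/
theorem coc_zero_of_not_surjective (hres : Function.Surjective (residue R ∘ algebraMap 𝒪 R))
    (s : Gal →* M2 (ResidueField 𝒪)) (r : Gal →* M2 R)
    (hrs : mapRep (residue R) r = mapRep (ResidueField.map (algebraMap 𝒪 R)) s)
    (φ : R →ₐ[𝒪] Dk 𝒪) (h : ¬ Function.Surjective φ) (g : Gal) :
    mapRep (φ : R →+* Dk 𝒪) r g = dmat (s g) ((0 : M2 (ResidueField 𝒪)) * s g) := by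
  rw [Matrix.zero_mul]
  ext i j
  rw [mapRep_apply, dmat_apply]
  obtain ⟨b, hb⟩ := algHom_Dk_fst hres φ (r g i j) (s g i j) (homDkMat_entry s r hrs g i j)
  obtain ⟨a, ha⟩ := algHom_Dk_snd_of_not_surjective hres φ h (r g i j)
  have e1 : b = 0 := (Dk.mk_inj (hb.symm.trans ha)).2
  rw [e1] at hb
  exact hb

end Fermat.Agent.S56
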