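/-
S56 / DICT, leaf RESID (task S56-RESID).  If there is at least one cocycle of type `𝒟`, then the
residual representation `s` itself is of type `𝒟` (base change along `k[ε] → k`).
-/
import Fermat.Agent.S56.Dict.DkInst
import Fermat.Agent.S56.Dict.DMat

set_option autoImplicit false

namespace Fermat.Agent.S56

open IsLocalRing Fermat.Agent.S53 Fermat.Agent.S53.Tangent

variable {𝒪 : Type} [CommRing 𝒪] [IsLocalRing 𝒪] {𝒟 : Cond 𝒪}
  {s : Gal →* M2 (ResidueField 𝒪)} {c : Gal → M2 (ResidueField 𝒪)}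

theorem Dk.fstHom_isLocalHom :
    IsLocalHom ((Dk.fstHom : Dk 𝒪 →ₐ[𝒪] ResidueField 𝒪) : Dk 𝒪 →+* ResidueField 𝒪) := by
  refine ⟨fun z hz => ?_⟩
  obtain ⟨a, b, rfl⟩ := Dk.exists_mk z
  have h1 : IsUnit (Dk.fstHom (Dk.mk a b : Dk 𝒪)) := hz
  rw [Dk.fstHom_mk] at h1
  rw [Dk.isUnit_mk]
  exact h1.ne_zero

theorem mapRep_fstHom (r : Gal →* M2 (Dk 𝒪)) (hrc : ∀ g, r g = dmat (s g) (c g * s g)) :
    mapRep ((Dk.fstHom : Dk 𝒪 →ₐ[𝒪] ResidueField 𝒪) : Dk 𝒪 →+* ResidueField 𝒪) r = s := by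
  ext g i j
  rw [mapRep_apply', hrc, Matrix.map_apply, dmat_apply]
  exact Dk.fstHom_mk _ _

/-- `IsGoodCond.of_surjective` along `Dk.fstHom`, then `IsGoodCond.of_isEquiv` with
`S53.baseChangeAlong_toAdic_isEquiv`. -/
theorem IsDCoc.type_residual (h𝒟 : IsGoodCond 𝒟) (h : IsDCoc 𝒟 s c) :
    ∃ hs : MatCont s, 𝒟 (toAdic s hs) := by
  obtain ⟨r, hr, hrc, hD⟩ := h
  have h1 := h𝒟.of_surjective (Dk.fstHom : Dk 𝒪 →ₐ[𝒪] ResidueField 𝒪) Dk.fstHom_isLocalHom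
    Dk.fstHom_surjective hD
  have h2 := h𝒟.of_isEquiv (baseChangeAlong_toAdic_isEquiv r hr _ Dk.fstHom_isLocalHom) h1
  have h3 := mapRep_fstHom r hrc
  have key : ∀ (s' : Gal →* M2 (ResidueField 𝒪)) (hs' : MatCont s'), s' = s →
      𝒟 (toAdic s' hs') → ∃ hs : MatCont s, 𝒟 (toAdic s hs) := by
    rintro s' hs' rfl h
    exact ⟨hs', h⟩
  exact key _ _ h3 h2

end Fermat.Agent.S56
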