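/-
S56 / DICT: from cocycles of type `𝒟` to classes in `H^1_S(ad⁰)`, and the tangent bound from a
bound on a Selmer group.
-/
import Fermat.Agent.S56.Defs
import Fermat.Agent.S56.Count.Defs
import Fermat.Agent.S56.Dict.DMatCoc
import Fermat.Agent.S56.Dict.SelTrace
import Fermat.Agent.S56.Dict.SelLevel

set_option autoImplicit false

namespace Fermat.Agent.S56

open IsLocalRing Fermat.Agent.S53 Fermat.Agent.S53.Tangent Fermat.Agent.S55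

/-- The global part of a condition: fixed determinant, unramified outside `ST`. -/
structure IsGlobCond {𝒪 : Type} [CommRing 𝒪] (𝒟 : Cond 𝒪) (p : ℕ) (ST : Finset Nat.Primes) :
    Prop where
  det : ∀ ⦃A : Type⦄ [CommRing A] [IsLocalRing A] [Algebra 𝒪 A] ⦃ρ : GaloisRepAdic A⦄,
    𝒟 ρ → ρ.DetIsCyclotomic p
  unram : ∀ ⦃A : Type⦄ [CommRing A] [IsLocalRing A] [Algebra 𝒪 A] ⦃ρ : GaloisRepAdic A⦄,
    𝒟 ρ → ∀ q : Nat.Primes, q ∉ ST → ρ.IsUnramifiedAt q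

theorem isGlobCond_SO (𝒪 : Type) [CommRing 𝒪] (p : ℕ) (Smin T : Finset ℕ)
    (ST : Finset Nat.Primes) (h : ∀ q : Nat.Primes, q ∉ ST → (q : ℕ) ∉ T) :
    IsGlobCond (condSO 𝒪 p Smin T) p ST where
  det := fun _ _ _ _ _ hρ => hρ.1.1
  unram := fun _ _ _ _ _ hρ q hq => hρ.1.2.2 q q.2 (h q hq)

theorem isGlobCond_Fl (𝒪 : Type) [CommRing 𝒪] (p : ℕ) (Smin T : Finset ℕ)
    (ST : Finset Nat.Primes) (h : ∀ q : Nat.Primes, q ∉ ST → (q : ℕ) ∉ T) :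
    IsGlobCond (condFl 𝒪 p Smin T) p ST where
  det := fun _ _ _ _ _ hρ => hρ.1.1
  unram := fun _ _ _ _ _ hρ q hq => hρ.1.2.2 q q.2 (h q hq)

variable {𝒪 : Type} [CommRing 𝒪] [IsLocalRing 𝒪] {𝒟 : Cond 𝒪} {p : ℕ} [Fact p.Prime]
  {ST : Finset Nat.Primes} {s : Gal →* M2 (ResidueField 𝒪)} {c : Gal → M2 (ResidueField 𝒪)}

theorem IsDCoc.trace_eq_zero (hp𝒪 : (p : 𝒪) ∈ maximalIdeal 𝒪) (hG : IsGlobCond 𝒟 p ST)
    (h : IsDCoc 𝒟 s c) (g : Gal) : (c g).trace = 0 := by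
  obtain ⟨r, hr, hrc, hD⟩ := h
  exact trace_eq_zero_of_det p hp𝒪 s c r hr hrc (hG.det hD) g

theorem IsDCoc.level (hG : IsGlobCond 𝒟 p ST) (h : IsDCoc 𝒟 s c) :
    ∃ N ∈ (lvlS ST).carrier, ∀ g, ∀ n ∈ N, c (g * n) = c g := by
  obtain ⟨r, hr, hrc, hD⟩ := h
  exact coc_level_of_unram ST s c r hr hrc (hG.unram hD)

/-- The smooth cocycle with values in `ad⁰` attached to a cocycle of type `𝒟`. -/
noncomputable def IsDCoc.toCoc (hp𝒪 : (p : 𝒪) ∈ maximalIdeal 𝒪) (hG : IsGlobCond 𝒟 p ST)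
    (h : IsDCoc 𝒟 s c) : Coc (lvlS ST) (Ad0 s) where
  toFun g := Ad0.mk (c g) (h.trace_eq_zero hp𝒪 hG g)
  map_mul' g g' := Ad0.ext (h.isCoc g g')
  level' := by
    obtain ⟨N, hN, hc⟩ := h.level hG
    exact ⟨N, hN, fun g n hn => Ad0.ext (hc g n hn)⟩

@[simp] theorem IsDCoc.toCoc_mat (hp𝒪 : (p : 𝒪) ∈ maximalIdeal 𝒪) (hG : IsGlobCond 𝒟 p ST)
    (h : IsDCoc 𝒟 s c) (g : Gal) : (h.toCoc hp𝒪 hG g).mat = c g := rfl

/-- **The tangent bound from a Selmer bound.** -/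
theorem tangentBound_of_sel (hp𝒪 : (p : 𝒪) ∈ maximalIdeal 𝒪) (hG : IsGlobCond 𝒟 p ST)
    (L : Count.LocCond ST (Ad0 s))
    (hL : ∀ (c : Gal → M2 (ResidueField 𝒪)) (h : IsDCoc 𝒟 s c),
      (h.toCoc hp𝒪 hG).cls ∈ Count.Sel ST L)
    (hfin : Finite (Count.Sel ST L)) (d : ℕ)
    (hcard : Nat.card (Count.Sel ST L) ≤ Nat.card (ResidueField 𝒪) ^ d) :
    TangentBound 𝒟 s d := by
  refine ⟨Count.Sel ST L, hfin, fun c => ⟨(c.2.toCoc hp𝒪 hG).cls, hL c.1 c.2⟩, 0, hcard, ?_, ?_⟩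
  · intro c c' hcc
    obtain ⟨a, ha⟩ := (Coc.cls_eq_cls_iff _ _).1 (congrArg Subtype.val hcc)
    exact ⟨a.mat, fun g => congrArg Ad0.mat (ha g)⟩
  · intro c hc
    obtain ⟨a, ha⟩ := (Coc.cls_eq_zero_iff _).1 (congrArg Subtype.val hc)
    exact ⟨a.mat, fun g => congrArg Ad0.mat (ha g)⟩

end Fermat.Agent.S56
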