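/-
S56 / DICT / T1, leaf A (task S56-T1A).
A functional on `R` killing `𝒪·1 + m_R²` gives an `𝒪`-algebra homomorphism `R → k[ε]`.
-/
import Fermat.Agent.S53.Tangent

set_option autoImplicit false

namespace Fermat.Agent.S56

open IsLocalRing Fermat.Agent.S53 Fermat.Agent.S53.Tangent

/-- The `𝒪`-submodule `𝒪·1 + m_R²` of `R`. -/
def tanSub (𝒪 R : Type) [CommRing 𝒪] [CommRing R] [IsLocalRing R] [Algebra 𝒪 R] :
    Submodule 𝒪 R :=
  (1 : Submodule 𝒪 R) ⊔ (maximalIdeal R ^ 2).restrictScalars 𝒪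

variable {𝒪 R : Type} [CommRing 𝒪] [IsLocalRing 𝒪] [CommRing R] [IsLocalRing R] [Algebra 𝒪 R]
  [IsLocalHom (algebraMap 𝒪 R)]

/-- Model proof: `Fermat.Agent.S53.exists_dual_homs` (the homomorphism `l₁` there), whose proof
only uses `isLocalHom` and `residue_surjective` of the test algebra. -/
theorem exists_hom_of_functional (hres : Function.Surjective (residue R ∘ algebraMap 𝒪 R))
    (D : R →ₗ[𝒪] ResidueField 𝒪) (hD : ∀ w ∈ tanSub 𝒪 R, D w = 0) :
    ∃ l : R →ₐ[𝒪] Dk 𝒪, ∀ x, ∃ a, l x = Dk.mk a (D x) := by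
  -- approximation by constants
  have happ : ∀ x : R, ∃ a : 𝒪, x - algebraMap 𝒪 R a ∈ maximalIdeal R := by
    intro x
    obtain ⟨a, ha⟩ := hres (residue R x)
    refine ⟨a, ?_⟩
    rw [← residue_eq_zero_iff, map_sub, ← ha]
    simp
  -- the residue map with values in the residue field of `𝒪`
  obtain ⟨res, hresa, hresm⟩ : ∃ res : R →+* ResidueField 𝒪,
      (∀ a : 𝒪, res (algebraMap 𝒪 R a) = residue 𝒪 a) ∧ ∀ x ∈ maximalIdeal R, res x = 0 := by
    have hbij : Function.Bijective (ResidueField.map (algebraMap 𝒪 R)) := by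
      refine ⟨(ResidueField.map (algebraMap 𝒪 R)).injective, fun y => ?_⟩
      obtain ⟨a, ha⟩ := hres y
      exact ⟨residue 𝒪 a, by rw [ResidueField.map_residue]; exact ha⟩
    let e := RingEquiv.ofBijective _ hbij
    refine ⟨(e.symm : ResidueField R →+* ResidueField 𝒪).comp (residue R), fun a => ?_,
      fun x hx => ?_⟩
    · rw [RingHom.comp_apply, RingHom.coe_coe, RingEquiv.symm_apply_eq]
      exact (ResidueField.map_residue _ a).symm
    · rw [RingHom.comp_apply, (residue_eq_zero_iff x).mpr hx, map_zero]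
  have hDalg : ∀ a : 𝒪, D (algebraMap 𝒪 R a) = 0 := fun a =>
    hD _ ((le_sup_left : (1 : Submodule 𝒪 R) ≤ tanSub 𝒪 R) (Submodule.mem_one.mpr ⟨a, rfl⟩))
  have hD1 : D 1 = 0 := by
    have := hDalg 1
    rwa [map_one] at this
  have hDm : ∀ y ∈ maximalIdeal R ^ 2, D y = 0 := fun y hy =>
    hD _ ((le_sup_right : (maximalIdeal R ^ 2).restrictScalars 𝒪 ≤ tanSub 𝒪 R) hy)
  have hDsmul : ∀ (a : 𝒪) (x : R), D (algebraMap 𝒪 R a * x) = residue 𝒪 a * D x := by
    intro a x
    rw [← Algebra.smul_def, map_smul, Algebra.smul_def]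
    rfl
  have hDmul : ∀ x y : R, D (x * y) = res x * D y + res y * D x := by
    intro x y
    obtain ⟨a, ha⟩ := happ x
    obtain ⟨a', ha'⟩ := happ y
    have hrx : res x = residue 𝒪 a := by
      have := hresm _ ha
      rwa [map_sub, hresa, sub_eq_zero] at this
    have hry : res y = residue 𝒪 a' := by
      have := hresm _ ha'
      rwa [map_sub, hresa, sub_eq_zero] at this
    have e : x * y = algebraMap 𝒪 R a * y + algebraMap 𝒪 R a' * x
        - algebraMap 𝒪 R (a * a') + (x - algebraMap 𝒪 R a) * (y - algebraMap 𝒪 R a') := by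
      rw [map_mul]; ring
    have hprod : D ((x - algebraMap 𝒪 R a) * (y - algebraMap 𝒪 R a')) = 0 :=
      hDm _ (by rw [pow_two]; exact Ideal.mul_mem_mul ha ha')
    rw [e, map_add, map_sub, map_add, hDsmul, hDsmul, hDalg, hprod, hrx, hry]
    ring
  exact ⟨{ toFun := fun x => Dk.mk (res x) (D x)
           map_one' := by rw [map_one, hD1, Dk.mk_one]
           map_mul' := fun x y => by rw [Dk.mk_mul, map_mul, hDmul]
           map_zero' := by rw [map_zero, map_zero, Dk.mk_zero]
           map_add' := fun x y => by rw [Dk.mk_add, map_add, map_add]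
           commutes' := fun a => by rw [hresa, hDalg, Dk.algebraMap_eq_mk] },
    fun x => ⟨res x, rfl⟩⟩

end Fermat.Agent.S56
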