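/-
S56 / DICT / T1, leaf B (task S56-T1B).  Pure linear algebra: if `M / W` is killed by `m_𝒪` and has
at most `|k| ^ r` functionals to `k`, then `M / W` is spanned by `r` elements.
-/
import Mathlib

set_option autoImplicit false

namespace Fermat.Agent.S56

open IsLocalRing

/-- Proof sketch: `M ⧸ W` is a `k`-vector space (`Module.IsTorsionBySet.module`, as in
`Fermat.Agent.S53.Tangent.exists_functional`); take a basis `ι`; every `ι → k` gives a functional
(`Basis.constr`), injectively; hence `ι` is finite with `|k| ^ |ι| ≤ |k| ^ r`, so `|ι| ≤ r`;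
lift the basis vectors to `M` and pad with zeros. -/
theorem exists_span_of_card_functionals {𝒪 M : Type} [CommRing 𝒪] [IsLocalRing 𝒪]
    [Finite (ResidueField 𝒪)] [AddCommGroup M] [Module 𝒪 M] (W : Submodule 𝒪 M)
    (hW : ∀ a ∈ maximalIdeal 𝒪, ∀ x : M, a • x ∈ W) (r : ℕ)
    (hfin : Finite {D : M →ₗ[𝒪] ResidueField 𝒪 // ∀ w ∈ W, D w = 0})
    (hcard : Nat.card {D : M →ₗ[𝒪] ResidueField 𝒪 // ∀ w ∈ W, D w = 0} ≤
      Nat.card (ResidueField 𝒪) ^ r) :
    ∃ z : Fin r → M, W ⊔ Submodule.span 𝒪 (Set.range z) = ⊤ := by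
  classical
  have htors : Module.IsTorsionBySet 𝒪 (M ⧸ W) (maximalIdeal 𝒪 : Set 𝒪) := by
    intro q a
    obtain ⟨x, rfl⟩ := Submodule.mkQ_surjective W q
    rw [← map_smul, Submodule.mkQ_apply, Submodule.Quotient.mk_eq_zero]
    exact hW a a.2 x
  letI : Module (ResidueField 𝒪) (M ⧸ W) :=
    (Module.IsTorsionBySet.module htors : Module (𝒪 ⧸ maximalIdeal 𝒪) (M ⧸ W))
  have hsmul : ∀ (a : 𝒪) (q : M ⧸ W), (residue 𝒪 a) • q = a • q := fun a q =>
    Module.IsTorsionBySet.mk_smul htors a q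
  obtain ⟨ι, ⟨b⟩⟩ : ∃ ι : Type, Nonempty (Module.Basis ι (ResidueField 𝒪) (M ⧸ W)) :=
    ⟨_, ⟨Module.Basis.ofVectorSpace (ResidueField 𝒪) (M ⧸ W)⟩⟩
  -- the functional attached to a family of scalars
  let Φ : (ι → ResidueField 𝒪) → {D : M →ₗ[𝒪] ResidueField 𝒪 // ∀ w ∈ W, D w = 0} := fun c =>
    ⟨{ toFun := fun x => b.constr (ResidueField 𝒪) c (W.mkQ x)
       map_add' := fun x y => by rw [map_add, map_add]
       map_smul' := fun a x => by
          rw [map_smul, ← hsmul, map_smul, RingHom.id_apply, Algebra.smul_def]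
          rfl }, fun w hw => by
      show b.constr (ResidueField 𝒪) c (W.mkQ w) = 0
      rw [Submodule.mkQ_apply, (Submodule.Quotient.mk_eq_zero W).mpr hw, map_zero]⟩
  have hΦ : Function.Injective Φ := by
    intro c c' h
    apply (b.constr (ResidueField 𝒪)).injective
    apply LinearMap.ext
    intro q
    obtain ⟨x, rfl⟩ := Submodule.mkQ_surjective W q
    exact LinearMap.congr_fun (congrArg Subtype.val h) x
  have hfinc : Finite (ι → ResidueField 𝒪) := Finite.of_injective Φ hΦ
  have hfinι : Finite ι := by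
    refine Finite.of_injective (fun i : ι => (Pi.single i 1 : ι → ResidueField 𝒪)) ?_
    intro i j hij
    by_contra hne
    have h1 := congrFun hij i
    simp only [Pi.single_eq_same] at h1
    rw [Pi.single_eq_of_ne hne] at h1
    exact one_ne_zero h1
  have hle : Nat.card ι ≤ r := by
    have h1 : Nat.card (ι → ResidueField 𝒪) ≤ Nat.card (ResidueField 𝒪) ^ r :=
      (Nat.card_le_card_of_injective Φ hΦ).trans hcard
    rw [Nat.card_fun] at h1
    exact (Nat.pow_le_pow_iff_right Finite.one_lt_card).mp h1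
  have := Fintype.ofFinite ι
  let e : ι ≃ Fin (Nat.card ι) := Finite.equivFin ι
  choose m hm using fun i : ι => Submodule.mkQ_surjective W (b i)
  let z : Fin r → M := fun j =>
    if h : (j : ℕ) < Nat.card ι then m (e.symm ⟨j, h⟩) else 0
  have hz : ∀ i : ι, m i ∈ Submodule.span 𝒪 (Set.range z) := by
    intro i
    apply Submodule.subset_span
    refine ⟨⟨(e i : ℕ), lt_of_lt_of_le (e i).2 hle⟩, ?_⟩
    simp only [z]
    rw [dif_pos (e i).2]
    simp
  refine ⟨z, eq_top_iff.mpr fun x _ => ?_⟩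
  choose a ha using fun i : ι => residue_surjective (b.repr (W.mkQ x) i)
  have hx : x - ∑ i, a i • m i ∈ W := by
    rw [← Submodule.Quotient.mk_eq_zero, ← Submodule.mkQ_apply, map_sub, map_sum, sub_eq_zero]
    conv_lhs => rw [← b.sum_repr (W.mkQ x)]
    refine Finset.sum_congr rfl fun i _ => ?_
    rw [map_smul, hm, ← hsmul, ha]
  have hx2 : x = (x - ∑ i, a i • m i) + ∑ i, a i • m i := by abel
  rw [hx2]
  exact Submodule.add_mem_sup hx
    (Submodule.sum_mem _ fun i _ => Submodule.smul_mem _ _ (hz i))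

end Fermat.Agent.S56
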