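/-
S56 / DICT / T1, leaf C (task S56-T1C).  Few homomorphisms to `k[ε]` ⇒ few generators of `m_R`.
-/
import Fermat.Agent.S56.Dict.T1Hom
import Fermat.Agent.S56.Dict.T1Span

set_option autoImplicit false

namespace Fermat.Agent.S56

open IsLocalRing Fermat.Agent.S53 Fermat.Agent.S53.Tangent

variable {𝒪 R : Type} [CommRing 𝒪] [IsLocalRing 𝒪] [CommRing R] [IsLocalRing R] [Algebra 𝒪 R]
  [IsLocalHom (algebraMap 𝒪 R)]

/-- Proof sketch.  (1) `D ↦ l_D` (`exists_hom_of_functional`, `choose`) is injective by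
`Dk.mk_inj`, so the functionals killing `tanSub 𝒪 R` are finite, at most `|k| ^ r`.
(2) `a • x ∈ tanSub` for `a ∈ m_𝒪` (write `x = algebraMap c + y`, `y ∈ m_R`; see `htors` in
`S53.Tangent.exists_functional`).  (3) `exists_span_of_card_functionals` gives `z₀`; replace
`z₀ i` by `z₀ i - algebraMap (c i) ∈ m_R`.  (4) every `x ∈ m_R` is
`algebraMap b + y + ∑ aᵢ zᵢ` with `y ∈ m_R²`, and then `b ∈ m_𝒪` because `algebraMap` is local; so
`m_R ≤ (m_𝒪 R ⊔ (z)) ⊔ m_R • m_R` and Nakayama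
(`Submodule.le_of_le_smul_of_le_jacobson_bot`) concludes. -/
theorem exists_gens [IsNoetherianRing R] [Finite (ResidueField 𝒪)]
    (hres : Function.Surjective (residue R ∘ algebraMap 𝒪 R)) (r : ℕ)
    [Finite (R →ₐ[𝒪] Dk 𝒪)]
    (hcard : Nat.card (R →ₐ[𝒪] Dk 𝒪) ≤ Nat.card (ResidueField 𝒪) ^ r) :
    ∃ z : Fin r → R, (∀ i, z i ∈ maximalIdeal R) ∧
      maximalIdeal R ≤ Ideal.map (algebraMap 𝒪 R) (maximalIdeal 𝒪) ⊔
        Ideal.span (Set.range z) := by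
  classical
  -- every element is a constant modulo `m_R`
  have hsub : ∀ x : R, ∃ c : 𝒪, x - algebraMap 𝒪 R c ∈ maximalIdeal R := by
    intro x
    obtain ⟨c, hc⟩ := hres (residue R x)
    refine ⟨c, ?_⟩
    rw [← residue_eq_zero_iff, map_sub, sub_eq_zero]
    exact hc.symm
  have h1W : ∀ b : 𝒪, algebraMap 𝒪 R b ∈ tanSub 𝒪 R := fun b =>
    (le_sup_left : (1 : Submodule 𝒪 R) ≤ tanSub 𝒪 R) (Submodule.mem_one.mpr ⟨b, rfl⟩)
  have hmW : ∀ y ∈ maximalIdeal R ^ 2, y ∈ tanSub 𝒪 R := fun y hy =>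
    (le_sup_right : (maximalIdeal R ^ 2).restrictScalars 𝒪 ≤ tanSub 𝒪 R) hy
  -- (1)
  choose l hl using fun D : {D : R →ₗ[𝒪] ResidueField 𝒪 // ∀ w ∈ tanSub 𝒪 R, D w = 0} =>
    exists_hom_of_functional hres D.1 D.2
  have hinj : Function.Injective l := by
    intro D D' h
    apply Subtype.ext
    apply LinearMap.ext
    intro x
    obtain ⟨a, ha⟩ := hl D x
    obtain ⟨a', ha'⟩ := hl D' x
    rw [h, ha'] at ha
    exact (Dk.mk_inj ha).2.symm
  have hfin : Finite {D : R →ₗ[𝒪] ResidueField 𝒪 // ∀ w ∈ tanSub 𝒪 R, D w = 0} :=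
    Finite.of_injective l hinj
  have hcard' : Nat.card {D : R →ₗ[𝒪] ResidueField 𝒪 // ∀ w ∈ tanSub 𝒪 R, D w = 0} ≤
      Nat.card (ResidueField 𝒪) ^ r := (Nat.card_le_card_of_injective l hinj).trans hcard
  -- (2)
  have hW : ∀ a ∈ maximalIdeal 𝒪, ∀ x : R, a • x ∈ tanSub 𝒪 R := by
    intro a ha x
    obtain ⟨c, hc⟩ := hsub x
    have e : a • x = algebraMap 𝒪 R (a * c) + algebraMap 𝒪 R a * (x - algebraMap 𝒪 R c) := by
      rw [Algebra.smul_def, map_mul]; ring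
    rw [e]
    refine (tanSub 𝒪 R).add_mem (h1W _) (hmW _ ?_)
    rw [pow_two]
    exact Ideal.mul_mem_mul (map_nonunit (algebraMap 𝒪 R) _ ha) hc
  -- (3)
  obtain ⟨z₀, hz₀⟩ := exists_span_of_card_functionals (tanSub 𝒪 R) hW r hfin hcard'
  choose c hc using fun i => hsub (z₀ i)
  refine ⟨fun i => z₀ i - algebraMap 𝒪 R (c i), hc, ?_⟩
  -- (4)
  refine Submodule.le_of_le_smul_of_le_jacobson_bot (I := maximalIdeal R)
    (IsNoetherian.noetherian _) (maximalIdeal_le_jacobson _) ?_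
  intro x hx
  have hxtop : x ∈ tanSub 𝒪 R ⊔ Submodule.span 𝒪 (Set.range z₀) := hz₀ ▸ Submodule.mem_top
  obtain ⟨w, hw, s, hs, rfl⟩ := Submodule.mem_sup.mp hxtop
  obtain ⟨u, hu, y, hy, rfl⟩ := Submodule.mem_sup.mp hw
  obtain ⟨b, rfl⟩ := Submodule.mem_one.mp hu
  obtain ⟨a, rfl⟩ := (Submodule.mem_span_range_iff_exists_fun 𝒪).mp hs
  have hy' : y ∈ maximalIdeal R ^ 2 := hy
  have hym : y ∈ maximalIdeal R := Ideal.pow_le_self two_ne_zero hy'
  have hsum : ∑ i, a i • (z₀ i - algebraMap 𝒪 R (c i)) ∈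
      Ideal.span (Set.range fun i => z₀ i - algebraMap 𝒪 R (c i)) := by
    refine Ideal.sum_mem _ fun i _ => ?_
    rw [Algebra.smul_def]
    exact Ideal.mul_mem_left _ _ (Ideal.subset_span ⟨i, rfl⟩)
  have hsumm : ∑ i, a i • (z₀ i - algebraMap 𝒪 R (c i)) ∈ maximalIdeal R := by
    refine Ideal.sum_mem _ fun i _ => ?_
    rw [Algebra.smul_def]
    exact Ideal.mul_mem_left _ _ (hc i)
  have e : algebraMap 𝒪 R b + y + ∑ i, a i • z₀ i =
      algebraMap 𝒪 R (b + ∑ i, a i * c i) + ∑ i, a i • (z₀ i - algebraMap 𝒪 R (c i)) + y := by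
    simp only [map_add, map_sum, map_mul, Algebra.smul_def, mul_sub, Finset.sum_sub_distrib]
    ring
  rw [e] at hx ⊢
  have hb : b + ∑ i, a i * c i ∈ maximalIdeal 𝒪 := by
    rw [mem_maximalIdeal, mem_nonunits_iff]
    intro hunit
    have h1 : algebraMap 𝒪 R (b + ∑ i, a i * c i) ∈ maximalIdeal R := by
      have h2 := (maximalIdeal R).sub_mem ((maximalIdeal R).sub_mem hx hym) hsumm
      have e2 : algebraMap 𝒪 R (b + ∑ i, a i * c i) +
          ∑ i, a i • (z₀ i - algebraMap 𝒪 R (c i)) + y - y -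
          ∑ i, a i • (z₀ i - algebraMap 𝒪 R (c i)) = algebraMap 𝒪 R (b + ∑ i, a i * c i) := by
        ring
      rwa [e2] at h2
    exact h1 (hunit.map (algebraMap 𝒪 R))
  refine Submodule.add_mem_sup (Submodule.add_mem_sup (Ideal.mem_map_of_mem _ hb) hsum) ?_
  rwa [smul_eq_mul, ← pow_two]

end Fermat.Agent.S56
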