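/-
S56 / DICT / T1.  `#Hom_𝒪(R, k[ε]) ≤ |k| ^ r` ⇒ `𝒪⟦x₁, …, x_r⟧ ↠ R`.
-/
import Fermat.Agent.S56.Dict.T1Gens
import Fermat.Agent.S53.PowerSeriesEval

set_option autoImplicit false

namespace Fermat.Agent.S56

open IsLocalRing Fermat.Agent.S53 Fermat.Agent.S53.Tangent

theorem exists_surjection_of_card_le {𝒪 R : Type} [CommRing 𝒪] [IsLocalRing 𝒪]
    [IsPrecomplete (maximalIdeal 𝒪) 𝒪] [Finite (ResidueField 𝒪)]
    [CommRing R] [IsLocalRing R] [IsNoetherianRing R] [IsAdicComplete (maximalIdeal R) R]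
    [Algebra 𝒪 R] [IsLocalHom (algebraMap 𝒪 R)]
    (hres : Function.Surjective (residue R ∘ algebraMap 𝒪 R)) (r : ℕ)
    [Finite (R →ₐ[𝒪] Dk 𝒪)]
    (hcard : Nat.card (R →ₐ[𝒪] Dk 𝒪) ≤ Nat.card (ResidueField 𝒪) ^ r) :
    ∃ γ : MvPowerSeries (Fin r) 𝒪 →ₐ[𝒪] R, Function.Surjective γ := by
  obtain ⟨z, hz, hgen⟩ := exists_gens hres r hcard
  refine ⟨PSC.evalHom (maximalIdeal R) z hz, PSC.algHom_surjective _ ?_ hres ?_⟩
  · intro i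
    rw [PSC.evalHom_X]
    exact hz i
  · simpa only [PSC.evalHom_X] using hgen

end Fermat.Agent.S56
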