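/-
S56 / DICT: from the tangent bound to the count of `Hom_𝒪(R, k[ε])` for a universal deformation
ring `R`, and to the surjection `𝒪⟦x₁, …, x_r⟧ ↠ R`.
-/
import Fermat.Agent.S56.Dict.T1
import Fermat.Agent.S56.Dict.DMatCoc
import Fermat.Agent.S56.Dict.DkInst
import Fermat.Agent.S56.Dict.HomDkMat
import Fermat.Prelude.Def_GaloisRep_DeformationRingData

set_option autoImplicit false

namespace Fermat.Agent.S56

open IsLocalRing Fermat.Agent.S53 Fermat.Agent.S53.Tangent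

variable {𝒪 : Type} [CommRing 𝒪] [IsDomain 𝒪] [IsDiscreteValuationRing 𝒪]
  [IsAdicComplete (maximalIdeal 𝒪) 𝒪]
  {ρbar : ResidualGaloisRep (ResidueField 𝒪)} {𝒟 : Cond 𝒪}

/-- **D0**: a matrix form of the universal deformation lifting `resMatOf ρbar b` exactly. -/
theorem exists_univ_matrix (DQ : GaloisRep.DeformationRingData 𝒪 ρbar 𝒟)
    (b : Module.Basis (Fin 2) (ResidueField 𝒪) ρbar.V) :
    ∃ (r : Gal →* M2 DQ.R) (hr : MatCont r), DQ.ρ.IsEquiv (toAdic r hr) ∧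
      mapRep (residue DQ.R) r =
        mapRep (ResidueField.map (algebraMap 𝒪 DQ.R)) (resMatOf ρbar b) :=
  exists_toAdic_lift DQ.ρ _ (factors_mapRep _ (resMatOf_factors ρbar b))
    (ResIsEquiv.trans' DQ.residual_isEquiv (baseChangeAlong_isEquiv_toRes ρbar b _))

/-- The push forward of the universal deformation along `φ`, in matrix form. -/
theorem baseChange_isEquiv (DQ : GaloisRep.DeformationRingData 𝒪 ρbar 𝒟)
    (r : Gal →* M2 DQ.R) (hr : MatCont r) (he : DQ.ρ.IsEquiv (toAdic r hr))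
    (φ : DQ.R →ₐ[𝒪] Dk 𝒪) (hφ : IsLocalHom (φ : DQ.R →+* Dk 𝒪)) :
    (DQ.ρ.baseChangeAlong (φ : DQ.R →+* Dk 𝒪) hφ).IsEquiv
      (toAdic (mapRep (φ : DQ.R →+* Dk 𝒪) r) (hr.map _ hφ)) := by
  obtain ⟨e⟩ := he
  exact IsEquiv.trans' ⟨e.baseChangeAlong _ hφ⟩ (baseChangeAlong_toAdic_isEquiv r hr _ hφ)

/-- **D2**: the type passes to surjective `φ`. -/
theorem type_of_surjective (h𝒟 : IsGoodCond 𝒟) (DQ : GaloisRep.DeformationRingData 𝒪 ρbar 𝒟)
    (r : Gal →* M2 DQ.R) (hr : MatCont r) (he : DQ.ρ.IsEquiv (toAdic r hr))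
    (φ : DQ.R →ₐ[𝒪] Dk 𝒪) (hφ : IsLocalHom (φ : DQ.R →+* Dk 𝒪))
    (hsurj : Function.Surjective φ) :
    𝒟 (toAdic (mapRep (φ : DQ.R →+* Dk 𝒪) r) (hr.map _ hφ)) :=
  h𝒟.of_isEquiv (baseChange_isEquiv DQ r hr he φ hφ) (h𝒟.of_surjective φ hφ hsurj DQ.isOfType)

/-- The residual representation of `(1 + ε c) s`. -/
theorem residual_isEquiv_of_dmat (b : Module.Basis (Fin 2) (ResidueField 𝒪) ρbar.V)
    (r' : Gal →* M2 (Dk 𝒪)) (hr' : MatCont r') (c : Gal → M2 (ResidueField 𝒪))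
    (hc : ∀ g, r' g = dmat (resMatOf ρbar b g) (c g * resMatOf ρbar b g)) :
    (toAdic r' hr').residual.IsEquiv
      (ρbar.baseChangeAlong (ResidueField.map (algebraMap 𝒪 (Dk 𝒪)))) := by
  refine ResIsEquiv.trans' (residual_toAdic_isEquiv_of_eq r' hr' _
    (factors_mapRep _ (resMatOf_factors ρbar b)) ?_)
    (ResIsEquiv.symm' (baseChangeAlong_isEquiv_toRes ρbar b _))
  ext g i j
  rw [mapRep_apply, mapRep_apply, hc g, dmat_apply, Dk.residue_mk]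

/-- **D4**: cohomologous cocycles come from the same homomorphism. -/
theorem hom_eq_of_cob (h𝒟 : IsGoodCond 𝒟) (DQ : GaloisRep.DeformationRingData 𝒪 ρbar 𝒟)
    (b : Module.Basis (Fin 2) (ResidueField 𝒪) ρbar.V)
    (r : Gal →* M2 DQ.R) (hr : MatCont r) (he : DQ.ρ.IsEquiv (toAdic r hr))
    (φ φ' : DQ.R →ₐ[𝒪] Dk 𝒪) (hsurj : Function.Surjective φ)
    (c c' : Gal → M2 (ResidueField 𝒪))
    (hc : ∀ g, mapRep (φ : DQ.R →+* Dk 𝒪) r g =
      dmat (resMatOf ρbar b g) (c g * resMatOf ρbar b g))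
    (hc' : ∀ g, mapRep (φ' : DQ.R →+* Dk 𝒪) r g =
      dmat (resMatOf ρbar b g) (c' g * resMatOf ρbar b g))
    (hcob : IsCob (resMatOf ρbar b) (fun g => c g - c' g)) : φ = φ' := by
  have hφ := algHom_Dk_isLocalHom φ
  have hφ' := algHom_Dk_isLocalHom φ'
  obtain ⟨m, hm⟩ := hcob
  have hconj : (toAdic (mapRep (φ : DQ.R →+* Dk 𝒪) r) (hr.map _ hφ)).IsEquiv
      (toAdic (mapRep (φ' : DQ.R →+* Dk 𝒪) r) (hr.map _ hφ')) := by
    rw [toAdic_isEquiv_iff]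
    refine ⟨dunit m, fun g => ?_⟩
    rw [dunit_val, hc, hc']
    exact conj_of_cob _ c c' m hm g
  obtain ⟨φ₀, -, huniq⟩ := DQ.universal (Dk 𝒪) Dk.residue_comp_surjective
    (toAdic (mapRep (φ : DQ.R →+* Dk 𝒪) r) (hr.map _ hφ))
    (type_of_surjective h𝒟 DQ r hr he φ hφ hsurj)
    (residual_isEquiv_of_dmat b _ _ c hc)
  rw [huniq φ ⟨hφ, baseChange_isEquiv DQ r hr he φ hφ⟩,
    huniq φ' ⟨hφ', IsEquiv.trans' (baseChange_isEquiv DQ r hr he φ' hφ') (IsEquiv.symm' hconj)⟩]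

/-- **D5**: the count. -/
theorem card_hom_le (h𝒟 : IsGoodCond 𝒟) (DQ : GaloisRep.DeformationRingData 𝒪 ρbar 𝒟)
    (b : Module.Basis (Fin 2) (ResidueField 𝒪) ρbar.V) (d : ℕ)
    (hT : TangentBound 𝒟 (resMatOf ρbar b) d) :
    Finite (DQ.R →ₐ[𝒪] Dk 𝒪) ∧
      Nat.card (DQ.R →ₐ[𝒪] Dk 𝒪) ≤ Nat.card (ResidueField 𝒪) ^ d := by
  classical
  obtain ⟨r, hr, he, hrs⟩ := exists_univ_matrix DQ b
  obtain ⟨X, hX, f, x₀, hcard, hf, hf₀⟩ := hT
  have hres := DQ.residue_surjective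
  have hex := fun φ : DQ.R →ₐ[𝒪] Dk 𝒪 => exists_coc_of_algHom hres (resMatOf ρbar b) r hrs φ
  choose c hc using hex
  have hD : ∀ φ : DQ.R →ₐ[𝒪] Dk 𝒪, Function.Surjective φ →
      IsDCoc 𝒟 (resMatOf ρbar b) (c φ) := fun φ hφs =>
    ⟨_, hr.map _ (algHom_Dk_isLocalHom φ), hc φ,
      type_of_surjective h𝒟 DQ r hr he φ (algHom_Dk_isLocalHom φ) hφs⟩
  let F : (DQ.R →ₐ[𝒪] Dk 𝒪) → X := fun φ =>
    if h : Function.Surjective φ then f ⟨c φ, hD φ h⟩ else x₀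
  have hF : Function.Injective F := by
    intro φ φ' hFF
    by_cases h : Function.Surjective φ <;> by_cases h' : Function.Surjective φ'
    · simp only [F, dif_pos h, dif_pos h'] at hFF
      exact hom_eq_of_cob h𝒟 DQ b r hr he φ φ' h (c φ) (c φ') (hc φ) (hc φ') (hf _ _ hFF)
    · simp only [F, dif_pos h, dif_neg h'] at hFF
      refine hom_eq_of_cob h𝒟 DQ b r hr he φ φ' h (c φ) 0 (hc φ)
        (coc_zero_of_not_surjective hres _ r hrs φ' h') ?_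
      simpa using hf₀ _ hFF
    · simp only [F, dif_neg h, dif_pos h'] at hFF
      refine (hom_eq_of_cob h𝒟 DQ b r hr he φ' φ h' (c φ') 0 (hc φ')
        (coc_zero_of_not_surjective hres _ r hrs φ h) ?_).symm
      simpa using hf₀ _ hFF.symm
    · exact algHom_Dk_eq_of_not_surjective hres φ φ' h h'
  exact ⟨Finite.of_injective F hF, (Nat.card_le_card_of_injective F hF).trans hcard⟩

/-- **DICT + T1**: the tangent bound gives the surjection from the power series ring. -/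
theorem exists_surjection_of_tangentBound [Finite (ResidueField 𝒪)] (h𝒟 : IsGoodCond 𝒟)
    (DQ : GaloisRep.DeformationRingData 𝒪 ρbar 𝒟)
    (b : Module.Basis (Fin 2) (ResidueField 𝒪) ρbar.V) (d : ℕ)
    (hT : TangentBound 𝒟 (resMatOf ρbar b) d) :
    ∃ γ : MvPowerSeries (Fin d) 𝒪 →ₐ[𝒪] DQ.R, Function.Surjective γ := by
  obtain ⟨hfin, hcard⟩ := card_hom_le h𝒟 DQ b d hT
  exact exists_surjection_of_card_le DQ.residue_surjective d hcard

end Fermat.Agent.S56
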